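import Fermat.Agent.S48.ModL.ESAbs
import Fermat.Agent.RED.ES.Formal

/-!
# S48 / MODL, block [ES]: Kronecker's congruence with diamonds from the norm formula

Input (block [H]): the `t`-expansion of the norm
`(N_α (β y))(t ^ p) = y(t ^ (p²)) * ∏_{b < p} (δ y)(ζ ^ b t)`, for all `y ∈ F`, and the fact that
`δ` preserves the Gauss ring.  Output: `CongrD hN p α β δ`.
-/

set_option autoImplicit false
set_option linter.style.haveILetI false
set_option linter.unusedSectionVars false
noncomputable section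

open ModularCurve AlgebraicCurve

namespace Fermat.Agent.S48.ModL

open Fermat.Agent.RED.Gauss Fermat.Agent.RED.TorsES Fermat.Agent.RED.ES

section BigO

variable {L : Type*} [Field L] {A : ValuationSubring L} {k : Type*} [Field k] {π : A →+* k}

theorem iota_qExpand (p : ℕ) [NeZero p] (a : LaurentSeries A) :
    iota A (qExpand A p a) = qExpand L p (iota A a) := coeffMap_qExpand _ _ _

theorem pi_qExpand (p : ℕ) [NeZero p] (a : LaurentSeries A) :
    pi π (qExpand A p a) = qExpand k p (pi π a) := coeffMap_qExpand _ _ _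

theorem qExpand_mem_bigO (p : ℕ) [NeZero p] {y : LaurentSeries L} (hy : y ∈ bigO π) :
    qExpand L p y ∈ bigO π := by
  obtain ⟨a, b, hb, h⟩ := hy
  refine ⟨qExpand A p a, qExpand A p b, ?_, ?_⟩
  · rw [pi_qExpand]
    intro h0
    exact hb (qExpand_injective p (by rw [h0, map_zero]))
  · rw [iota_qExpand, iota_qExpand, ← map_mul, h]

theorem bigRed_qExpand (p : ℕ) [NeZero p] {y : LaurentSeries L} (hy : y ∈ bigO π) :
    bigRed π ⟨qExpand L p y, qExpand_mem_bigO p hy⟩ = qExpand k p (bigRed π ⟨y, hy⟩) := by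
  have hy' := hy
  obtain ⟨a, b, hb, h⟩ := hy'
  have hb' : pi π (qExpand A p b) ≠ 0 := by
    rw [pi_qExpand]
    intro h0
    exact hb (qExpand_injective p (by rw [h0, map_zero]))
  have h' : qExpand L p y * iota A (qExpand A p b) = iota A (qExpand A p a) := by
    rw [iota_qExpand, iota_qExpand, ← map_mul, h]
  rw [bigRed_eq π ⟨qExpand L p y, qExpand_mem_bigO p hy⟩ hb' h', bigRed_eq π ⟨y, hy⟩ hb h,
    pi_qExpand, pi_qExpand, map_div₀]

theorem iota_rotR (ζ : Aˣ) (a : LaurentSeries A) :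
    iota A (rotR ζ a) = rotR (Units.map (A.subtype : A →* L) ζ) (iota A a) :=
  coeffMap_rotR _ _ _

theorem pi_rotR (ζ : Aˣ) (a : LaurentSeries A) :
    pi π (rotR ζ a) = rotR (Units.map (π : A →* k) ζ) (pi π a) :=
  coeffMap_rotR _ _ _

theorem rotR_mem_bigO (ζ : Aˣ) {y : LaurentSeries L} (hy : y ∈ bigO π) :
    rotR (Units.map (A.subtype : A →* L) ζ) y ∈ bigO π := by
  obtain ⟨a, b, hb, h⟩ := hy
  refine ⟨rotR ζ a, rotR ζ b, ?_, ?_⟩
  · rw [pi_rotR]
    intro h0
    exact hb (rotR_injective _ (by rw [h0, map_zero]))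
  · rw [iota_rotR, iota_rotR, ← map_mul, h]

theorem bigRed_rotR (ζ : Aˣ) {y : LaurentSeries L} (hy : y ∈ bigO π) :
    bigRed π ⟨rotR (Units.map (A.subtype : A →* L) ζ) y, rotR_mem_bigO ζ hy⟩ =
      rotR (Units.map (π : A →* k) ζ) (bigRed π ⟨y, hy⟩) := by
  have hy' := hy
  obtain ⟨a, b, hb, h⟩ := hy'
  have hb' : pi π (rotR ζ b) ≠ 0 := by
    rw [pi_rotR]
    intro h0
    exact hb (rotR_injective _ (by rw [h0, map_zero]))
  have h' : rotR (Units.map (A.subtype : A →* L) ζ) y * iota A (rotR ζ b) = iota A (rotR ζ a) := by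
    rw [iota_rotR, iota_rotR, ← map_mul, h]
  rw [bigRed_eq π ⟨_, rotR_mem_bigO ζ hy⟩ hb' h', bigRed_eq π ⟨y, hy⟩ hb h,
    pi_rotR, pi_rotR, map_div₀]

/-- the product over the rotations lies in `bigO` and reduces to the `p`-th power -/
theorem prod_rotR_mem_bigO (ζ : Aˣ) (p : ℕ) {y : LaurentSeries L} (hy : y ∈ bigO π) :
    ∏ b ∈ Finset.range p, rotR ((Units.map (A.subtype : A →* L) ζ) ^ b) y ∈ bigO π := by
  refine Subring.prod_mem _ fun b _ => ?_
  rw [← map_pow]
  exact rotR_mem_bigO (ζ ^ b) hy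

theorem bigRed_prod_rotR (ζ : Aˣ) (hζ : π ζ = 1) (p : ℕ) {y : LaurentSeries L}
    (hy : y ∈ bigO π) :
    bigRed π ⟨_, prod_rotR_mem_bigO ζ p hy⟩ = (bigRed π ⟨y, hy⟩) ^ p := by
  have h1 : Units.map (π : A →* k) ζ = 1 := Units.ext hζ
  have e : (⟨_, prod_rotR_mem_bigO ζ p hy⟩ : bigO π) =
      ∏ b ∈ Finset.range p, (⟨rotR (Units.map (A.subtype : A →* L) (ζ ^ b)) y,
        rotR_mem_bigO (ζ ^ b) hy⟩ : bigO π) := by
    apply Subtype.ext
    rw [SubmonoidClass.coe_finsetProd]
    show ∏ b ∈ Finset.range p, rotR ((Units.map (A.subtype : A →* L) ζ) ^ b) y =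
      ∏ b ∈ Finset.range p, rotR (Units.map (A.subtype : A →* L) (ζ ^ b)) y
    exact Finset.prod_congr rfl fun b _ => by rw [map_pow]
  rw [e, map_prod]
  have : ∀ b ∈ Finset.range p, bigRed π (⟨rotR (Units.map (A.subtype : A →* L) (ζ ^ b)) y,
        rotR_mem_bigO (ζ ^ b) hy⟩ : bigO π) = bigRed π ⟨y, hy⟩ := by
    intro b _
    rw [bigRed_rotR, map_pow, h1, one_pow, rotR_one_left]
  rw [Finset.prod_congr rfl this, Finset.prod_const, Finset.card_range]

end BigO

local notation "Qb" => AlgebraicClosure ℚ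

variable {F₀ : IntermediateField ℚ (LaurentSeries ℚ)}
  {A : ValuationSubring Qb} {k : Type*} [Field k] {π : A →+* k}

/-- **Kronecker's congruence with a diamond operator, from the norm formula.** -/
theorem congrD_of_normFormula (hN : Norm π (laurentBaseChange Qb F₀)) (p : ℕ) [NeZero p]
    [Fact p.Prime] [CharP k p] {F' : Type*} [Field F'] [Algebra Qb F']
    (α β : laurentBaseChange Qb F₀ →ₐ[Qb] F') (δ : SemilinearAut Qb (laurentBaseChange Qb F₀))
    (hδ : ∀ y : gO hN, δ • (y : laurentBaseChange Qb F₀) ∈ gO hN)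
    (ζ : Aˣ) (hζ : π ζ = 1)
    (hNF : ∀ y : laurentBaseChange Qb F₀, y ≠ 0 →
      normAlong α (β y) ≠ 0 ∧
      qExpand Qb p ((normAlong α (β y) : laurentBaseChange Qb F₀) : LaurentSeries Qb) =
        qExpand Qb p (qExpand Qb p (y : LaurentSeries Qb)) *
          ∏ b ∈ Finset.range p, rotR ((Units.map (A.subtype : A →* Qb) ζ) ^ b)
            ((δ • y : laurentBaseChange Qb F₀) : LaurentSeries Qb)) :
    CongrD hN p α β δ := by
  intro y
  set yF : laurentBaseChange Qb F₀ := ((y : gO hN) : laurentBaseChange Qb F₀) with hyF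
  have hy0 : yF ≠ 0 := by
    intro h0
    exact y.ne_zero (Subtype.ext h0)
  obtain ⟨hz0, hz⟩ := hNF yF hy0
  set z : laurentBaseChange Qb F₀ := normAlong α (β yF) with hzdef
  let n' : gO hN := ⟨δ • yF, hδ y⟩
  have hyO : (yF : LaurentSeries Qb) ∈ bigO π := (y : gO hN).2
  have hvO : ((δ • yF : laurentBaseChange Qb F₀) : LaurentSeries Qb) ∈ bigO π := n'.2
  -- the right hand side lies in `bigO`, with known reduction
  have hR1 := qExpand_mem_bigO (π := π) p (qExpand_mem_bigO (π := π) p hyO)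
  have hR2 := prod_rotR_mem_bigO (π := π) ζ p hvO
  have hRO : qExpand Qb p (z : LaurentSeries Qb) ∈ bigO π := by
    rw [hz]; exact Subring.mul_mem _ hR1 hR2
  have hRred : bigRed π ⟨_, hRO⟩ =
      qExpand k p (qExpand k p (gRed hN y) * coeffMap (frobenius k p) (gRed hN n')) := by
    have e : (⟨_, hRO⟩ : bigO π) = ⟨_, hR1⟩ * ⟨_, hR2⟩ := Subtype.ext hz
    rw [e, map_mul, bigRed_qExpand p (qExpand_mem_bigO (π := π) p hyO), bigRed_qExpand p hyO,
      bigRed_prod_rotR ζ hζ p hvO, map_mul, ← Fermat.Agent.RED.TorsES.pow_char_eq]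
    rfl
  -- `z` lies in the Gauss ring
  have hzO : z ∈ gO hN := by
    rcases (gO hN).mem_or_inv_mem z with h | h
    · exact h
    · by_contra hcon
      have hnu : ¬ IsUnit (⟨z⁻¹, h⟩ : gO hN) := by
        intro hu
        apply hcon
        have := coe_units_inv' hu.unit
        rw [hu.unit_spec] at this
        simp only [inv_inv] at this
        rw [← this]
        exact Subtype.mem _
      have h0 : gRed hN ⟨z⁻¹, h⟩ = 0 := by
        by_contra hne
        exact hnu ((isUnit_iff_gRed_ne_zero hN _).mpr hne)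
      have hiO : ((z⁻¹ : laurentBaseChange Qb F₀) : LaurentSeries Qb) ∈ bigO π := h
      have h1 : (⟨_, qExpand_mem_bigO (π := π) p hiO⟩ : bigO π) * ⟨_, hRO⟩ = 1 := by
        apply Subtype.ext
        show qExpand Qb p ((z⁻¹ : laurentBaseChange Qb F₀) : LaurentSeries Qb) *
          qExpand Qb p (z : LaurentSeries Qb) = 1
        rw [← map_mul]
        have : ((z⁻¹ : laurentBaseChange Qb F₀) : LaurentSeries Qb) * (z : LaurentSeries Qb) = 1 := by
          have := congrArg (Subtype.val) (inv_mul_cancel₀ hz0)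
          simpa using this
        rw [this, map_one]
      have h2 := congrArg (bigRed π) h1
      rw [map_mul, bigRed_qExpand p hiO, map_one] at h2
      have h3 : bigRed π ⟨_, hiO⟩ = 0 := h0
      rw [h3, map_zero, zero_mul] at h2
      exact zero_ne_one h2
  refine ⟨⟨z, hzO⟩, n', rfl, rfl, ?_⟩
  apply qExpand_injective (R := k) p
  rw [← hRred]
  exact (bigRed_qExpand (π := π) p (show (z : LaurentSeries Qb) ∈ bigO π from hzO)).symm

end Fermat.Agent.S48.ModL
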