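import Fermat.Agent.RED.TorsESAbs
import Fermat.Prelude.Def_ModularCurve_ArithmeticGalois

/-!
# S48 / MODL, block [ES], abstract form

`F₀ ⊆ ℚ((q))` any intermediate field, `F = laurentBaseChange ℚ̄ F₀`, `A` a valuation ring of `ℚ̄`,
`π : A → k`, `hN : Norm π F` (Gauss valuation on `q`-expansions).

* `K1 hN m`       : a Gauss unit `g ≡ 1` whose divisor is divisible by `m` has divisor `m • div h`.
* `CongrD hN p α β δ` : Kronecker's congruence with a diamond operator `δ`: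
  `red (N_α (β y)) = (red y)(q ^ p) * Frob (red (δ y))`.

Consequences (no reduction map on places or divisors is needed):

* `esUnram` : inertia at `A` acts trivially on `Pic⁰(F)[m]`;
* `esQuad`  : a Frobenius lift `σ` satisfies `σ² δ x - (α_* β^*) (σ x) + p x = 0` on `Pic⁰(F)[m]`.
-/

set_option autoImplicit false
set_option linter.style.haveILetI false
set_option linter.unusedSectionVars false
noncomputable section

open ModularCurve AlgebraicCurve

namespace Fermat.Agent.S48.ModL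

open Fermat.Agent.RED.Gauss Fermat.Agent.RED.TorsES

local notation "Qb" => AlgebraicClosure ℚ

variable {F₀ : IntermediateField ℚ (LaurentSeries ℚ)}
  {A : ValuationSubring Qb} {k : Type*} [Field k] {π : A →+* k}

/-- The special case "reduction `= 1`" of (K) for the exponent `m`. -/
def K1 (hN : Norm π (laurentBaseChange Qb F₀)) (m : ℕ) : Prop :=
  ∀ g : gO hN, gRed hN g = 1 →
    (∀ P : Place Qb (laurentBaseChange Qb F₀), (m : ℤ) ∣ P.ord (g : laurentBaseChange Qb F₀)) →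
    ∃ h : laurentBaseChange Qb F₀, h ≠ 0 ∧
      ∀ P : Place Qb (laurentBaseChange Qb F₀),
        P.ord (g : laurentBaseChange Qb F₀) = m * P.ord h

/-- Kronecker's congruence for the norm of `β y`, with the diamond operator `δ`. -/
def CongrD (hN : Norm π (laurentBaseChange Qb F₀)) (p : ℕ) [NeZero p] [Fact p.Prime]
    [CharP k p] {F' : Type*} [Field F'] [Algebra Qb F']
    (α β : laurentBaseChange Qb F₀ →ₐ[Qb] F') (δ : SemilinearAut Qb (laurentBaseChange Qb F₀)) :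
    Prop :=
  ∀ y : (gO hN)ˣ, ∃ n n' : gO hN,
    (n : laurentBaseChange Qb F₀) =
      normAlong α (β ((y : gO hN) : laurentBaseChange Qb F₀)) ∧
    (n' : laurentBaseChange Qb F₀) = δ • ((y : gO hN) : laurentBaseChange Qb F₀) ∧
    gRed hN n = qExpand k p (gRed hN y) * coeffMap (frobenius k p) (gRed hN n')

section Galois

variable (hN : Norm π (laurentBaseChange Qb F₀))

theorem galois_mem_gO {σ : Qb ≃ₐ[ℚ] Qb} (hσ : σ ∈ A.decompositionSubgroup ℚ) (sb : k →+* k)
    (hsb : ∀ a : A, π (resA A σ hσ a) = sb (π a)) (y : gO hN) :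
    (arithmeticGalois F₀ σ • (y : laurentBaseChange Qb F₀)) ∈ gO hN :=
  coeffMap_mem_bigO _ (resA A σ hσ) sb (coe_resA A σ hσ) hsb y.2

theorem gRed_galois {σ : Qb ≃ₐ[ℚ] Qb} (hσ : σ ∈ A.decompositionSubgroup ℚ) (sb : k →+* k)
    (hsb : ∀ a : A, π (resA A σ hσ a) = sb (π a)) (y : gO hN) :
    gRed hN ⟨_, galois_mem_gO hN hσ sb hsb y⟩ = coeffMap sb (gRed hN y) :=
  bigRed_coeffMap _ (resA A σ hσ) sb (coe_resA A σ hσ) hsb y.2

end Galois

theorem mk_eq_zero_of_gRed_eq_one (hN : Norm π (laurentBaseChange Qb F₀)) {m : ℕ} (hm : m ≠ 0)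
    (hK : K1 hN m)
    (D : Divisor.degZero (K := Qb) (F := laurentBaseChange Qb F₀)) (g : gO hN)
    (hg : gRed hN g = 1)
    (hD : IsDiv (m : ℤ) (D : Divisor Qb (laurentBaseChange Qb F₀))
      (g : laurentBaseChange Qb F₀)) : Pic0.mk D = 0 :=
  mk_eq_zero_of_isDiv (by exact_mod_cast hm) hD (hK g hg fun P => ⟨_, (hD.2 P).symm⟩)

theorem coe_units_inv' {F : Type*} [Field F] {O : ValuationSubring F} (u : Oˣ) :
    (((u⁻¹ : Oˣ) : O) : F) = ((u : O) : F)⁻¹ := by
  have h1 : ((u : O) : F) * (((u⁻¹ : Oˣ) : O) : F) = 1 := congrArg Subtype.val (Units.mul_inv u)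
  exact eq_inv_of_mul_eq_one_right h1

/-- a torsion class is represented by a Gauss unit -/
theorem exists_unit_isDiv (hN : Norm π (laurentBaseChange Qb F₀)) {m : ℕ}
    {D : Divisor.degZero (K := Qb) (F := laurentBaseChange Qb F₀)}
    (hx : m • Pic0.mk D = 0) :
    ∃ u : (gO hN)ˣ, IsDiv (m : ℤ) (D : Divisor Qb (laurentBaseChange Qb F₀))
      ((u : gO hN) : laurentBaseChange Qb F₀) := by
  obtain ⟨f, hf⟩ := exists_isDiv_of_nsmul_eq_zero hx
  obtain ⟨c, u, _, rfl⟩ := exists_const_mul_unit hN f hf.1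
  exact ⟨u, hf.of_const_mul⟩

/-- **Inertia acts trivially on the `m`-torsion.** -/
theorem esUnram (hN : Norm π (laurentBaseChange Qb F₀)) {m : ℕ} (hm : m ≠ 0) (hK : K1 hN m)
    {σ : Qb ≃ₐ[ℚ] Qb} (hσ : σ ∈ A.inertiaSubgroupIn ℚ)
    (x : Pic0 Qb (laurentBaseChange Qb F₀)) (hx : m • x = 0) :
    σ • x = x := by
  obtain ⟨D, rfl⟩ := Pic0.mk_surjective x
  obtain ⟨u, hu⟩ := exists_unit_isDiv hN hx
  obtain ⟨τ, hτ, rfl⟩ := hσ
  have hsb := pi_resA_of_inertia (K := ℚ) hN.surj τ hτ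
  set s := arithmeticGalois (L := Qb) F₀ (τ : Qb ≃ₐ[ℚ] Qb) with hs
  let u1 : gO hN := ⟨_, galois_mem_gO hN τ.2 (RingHom.id k) hsb u⟩
  have hu1 : gRed hN u1 = gRed hN u := by
    rw [gRed_galois hN τ.2 (RingHom.id k) hsb u, coeffMap_id]
  rw [← sub_eq_zero]
  change s • Pic0.mk D - Pic0.mk D = 0
  rw [SemilinearAut.pic0_smul_mk, ← mk_sub']
  refine mk_eq_zero_of_gRed_eq_one hN hm hK _ (u1 * ((u⁻¹ : (gO hN)ˣ) : gO hN)) ?_ ?_
  · rw [map_mul, hu1, ← map_mul, Units.mul_inv, map_one]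
  · have h := (hu.smul s).mul hu.inv
    rw [← sub_eq_add_neg] at h
    have e : (((u1 * ((u⁻¹ : (gO hN)ˣ) : gO hN) : gO hN)) : laurentBaseChange Qb F₀) =
        s • ((u : gO hN) : laurentBaseChange Qb F₀) *
          ((u : gO hN) : laurentBaseChange Qb F₀)⁻¹ := by
      rw [← coe_units_inv']; rfl
    rw [e]
    exact h

/-- **The Eichler–Shimura relation on the `m`-torsion, with a diamond operator.** -/
theorem esQuad (hN : Norm π (laurentBaseChange Qb F₀)) {m : ℕ} (hm : m ≠ 0) (hK : K1 hN m)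
    {p : ℕ} [NeZero p] [Fact p.Prime] [CharP k p]
    {F' : Type*} [Field F'] [Algebra Qb F'] [HasPrincipalDivisors Qb F']
    (α β : laurentBaseChange Qb F₀ →ₐ[Qb] F') (hα : α.toRingHom.IsIntegral)
    (hβ : β.toRingHom.IsIntegral) (hFI : FundamentalIdentityAlong Qb β hβ)
    (hfin : FiniteAlong Qb α) (hNF : NormFormulaAlong Qb α hfin)
    (δ : SemilinearAut Qb (laurentBaseChange Qb F₀))
    (hC : CongrD hN p α β δ)
    {σ : Qb ≃ₐ[ℚ] Qb} (hσ : A.IsFrobeniusAt σ p)
    (hδσ : δ * arithmeticGalois F₀ σ = arithmeticGalois F₀ σ * δ)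
    (x : Pic0 Qb (laurentBaseChange Qb F₀)) (hx : m • x = 0) :
    σ • σ • (δ • x) - Pic0.correspondence β α hβ hα hFI hfin hNF (σ • x) + p • x = 0 := by
  obtain ⟨D, rfl⟩ := Pic0.mk_surjective x
  obtain ⟨u, hu⟩ := exists_unit_isDiv hN hx
  have hdec := hσ.mem_decompositionSubgroup
  have hsb := pi_resA_of_frobenius (K := ℚ) hN.surj hσ
  set s := arithmeticGalois (L := Qb) F₀ σ with hs
  set Fr := coeffMap (frobenius k p) with hFr
  let u1 : gO hN := ⟨_, galois_mem_gO hN hdec _ hsb u⟩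
  have hu1 : gRed hN u1 = Fr (gRed hN u) := gRed_galois hN hdec _ hsb u
  have hu0 : gRed hN u ≠ 0 := (isUnit_iff_gRed_ne_zero hN _).mp u.isUnit
  have hFr0 : ∀ z : LaurentSeries k, z ≠ 0 → Fr z ≠ 0 := fun z hz h0 =>
    hz (coeffMap_injective _ (frobenius k p).injective (by rw [h0, map_zero]))
  have hu1u : IsUnit u1 := (isUnit_iff_gRed_ne_zero hN _).mpr (by rw [hu1]; exact hFr0 _ hu0)
  obtain ⟨n, n', hn, hn', hnred⟩ := hC hu1u.unit
  rw [IsUnit.unit_spec, hu1, ← pow_char_eq] at hnred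
  rw [IsUnit.unit_spec] at hn hn'
  -- `n'` is a Gauss unit
  obtain ⟨-, n'', -, hn'', -⟩ := hC hu1u.unit⁻¹
  have hu1F0 : (u1 : laurentBaseChange Qb F₀) ≠ 0 := fun h0 => hu1u.ne_zero (Subtype.ext h0)
  have hn'u : IsUnit n' := by
    refine IsUnit.of_mul_eq_one n'' (Subtype.ext ?_)
    show (n' : laurentBaseChange Qb F₀) * (n'' : laurentBaseChange Qb F₀) = 1
    rw [hn', hn'', coe_units_inv', IsUnit.unit_spec, ← smul_mul', mul_inv_cancel₀ hu1F0, smul_one]
  have hn'0 : gRed hN n' ≠ 0 := (isUnit_iff_gRed_ne_zero hN _).mp hn'u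
  let n2 : gO hN := ⟨_, galois_mem_gO hN hdec _ hsb n'⟩
  have hn2 : gRed hN n2 = Fr (gRed hN n') := gRed_galois hN hdec _ hsb n'
  have hnu : IsUnit n := (isUnit_iff_gRed_ne_zero hN _).mpr (by
    rw [hnred]; exact mul_ne_zero (pow_ne_zero _ hu0) (hFr0 _ hn'0))
  -- rewrite everything in terms of divisors
  change s • s • (δ • Pic0.mk D) - Pic0.correspondence β α hβ hα hFI hfin hNF (s • Pic0.mk D)
    + p • Pic0.mk D = 0
  have hT : ∀ E : Divisor.degZero (K := Qb) (F := laurentBaseChange Qb F₀),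
      Pic0.correspondence β α hβ hα hFI hfin hNF (Pic0.mk E) =
      Pic0.mk (Pic0.degZeroCorrespondence β α hβ hα hFI E) := fun _ => rfl
  rw [SemilinearAut.pic0_smul_mk, SemilinearAut.pic0_smul_mk, SemilinearAut.pic0_smul_mk,
    SemilinearAut.pic0_smul_mk, hT, ← mk_sub', ← mk_nsmul', ← Pic0.mk_add]
  refine mk_eq_zero_of_gRed_eq_one hN hm hK _
    (n2 * ((hnu.unit⁻¹ : (gO hN)ˣ) : gO hN) * (u : gO hN) ^ p) ?_ ?_
  · have h1 : gRed hN n * gRed hN ((hnu.unit⁻¹ : (gO hN)ˣ) : gO hN) = 1 := by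
      rw [← map_mul]
      rw [hnu.mul_val_inv, map_one]
    rw [map_mul, map_mul, map_pow, hn2]
    rw [hnred] at h1
    calc Fr (gRed hN n') * gRed hN ((hnu.unit⁻¹ : (gO hN)ˣ) : gO hN) * gRed hN u ^ p
        = gRed hN u ^ p * Fr (gRed hN n') * gRed hN ((hnu.unit⁻¹ : (gO hN)ˣ) : gO hN) := by
          ring
      _ = 1 := h1
  · have h1 := hu.smul s
    have h2 := ((hu.smul δ).smul s).smul s
    have h3 := h1.correspondence β α hβ hα hfin hNF
    have h := (h2.mul h3.inv).mul (hu.pow p)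
    rw [← sub_eq_add_neg] at h
    have e : ((n2 * ((hnu.unit⁻¹ : (gO hN)ˣ) : gO hN) * (u : gO hN) ^ p : gO hN) :
        laurentBaseChange Qb F₀) =
        s • s • δ • ((u : gO hN) : laurentBaseChange Qb F₀) *
          (normAlong α (β (s • ((u : gO hN) : laurentBaseChange Qb F₀))))⁻¹ *
          ((u : gO hN) : laurentBaseChange Qb F₀) ^ p := by
      have e1 : (((hnu.unit⁻¹ : (gO hN)ˣ) : gO hN) : laurentBaseChange Qb F₀) =
          (n : laurentBaseChange Qb F₀)⁻¹ := by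
        rw [coe_units_inv', hnu.unit_spec]
      have e2 : (n2 : laurentBaseChange Qb F₀) =
          s • s • δ • ((u : gO hN) : laurentBaseChange Qb F₀) := by
        show s • (n' : laurentBaseChange Qb F₀) = _
        rw [hn']
        show s • δ • s • ((u : gO hN) : laurentBaseChange Qb F₀) = _
        rw [← mul_smul δ s, hδσ, mul_smul]
      rw [← hn, ← e1, ← e2]; rfl
    rw [e]
    exact h

end Fermat.Agent.S48.ModL
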