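import Mathlib
import Fermat.Agent.S24.Sigma
import Fermat.Agent.S24.Growth
import Fermat.Prelude.Def_ModularCurve_ArithmeticGalois

/-!
# S48 / MODL : abstract modular function fields ("levels")

A `Lvl` is a subgroup `G` of `SL(2,ℤ)` containing `± Γ(h)` and `T`, together with a finite family
of generators of its function field: rational Laurent series `gen i ∈ ℚ((q))` which are the
`q`-expansions of holomorphic functions `hol i` on the upper half plane, `G`-invariant, of moderate
growth at all cusps, and separating the cosets of `G`.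

`X₀(N)` (generators `j(q^d)`, `d ∣ N`) is an example; the example needed for S48 is
`GY M = {γ ∈ Γ₀(M²) : d ≡ ± 1 mod M}` (`ModL/Y/*`).

All of GAL/AD, GAL/Sup (K1, K2), GAL/OpenStab is ported to a general `L : Lvl`:
replace `Gamma0 N ↦ L.G`, `XN N ↦ L.X`, `FK K N ↦ L.FK K`, `thetaK ι N ↦ L.thetaK ι`,
`jK K N d hd ↦ L.genK K i`, `jdHol d ↦ L.hol i`, `jK1 K N ↦ L.jK K`.
-/

set_option autoImplicit false

open UpperHalfPlane hiding I
open Function ModularCurve CongruenceSubgroup
open scoped Manifold MatrixGroups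
open Fermat.Agent.S24

namespace Fermat.Agent.S48.ModL

noncomputable section

/-- An abstract modular function field. -/
structure Lvl where
  /-- the group -/
  G : Subgroup SL(2, ℤ)
  /-- a level -/
  h : ℕ
  h_ne : h ≠ 0
  Gamma_le : Gamma h ≤ G
  neg_one_mem : (-1 : SL(2, ℤ)) ∈ G
  T_mem : ModularGroup.T ∈ G
  /-- index set of the generators -/
  ι : Type
  fin : Fintype ι
  /-- the generators, as rational `q`-series -/
  gen : ι → LaurentSeries ℚ
  /-- the generators, as holomorphic functions -/
  hol : ι → Hol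
  /-- the generators, as fractions of periodic bounded holomorphic functions -/
  per : ι → MerPer 1
  toLaurent_per : ∀ i, toLaurent 1 (per i) = coeffEmb ℂ (gen i)
  toMer_per : ∀ i, toMer 1 (per i) = algebraMap Hol Mer (hol i)
  growth : ∀ (i : ι) (g : SL(2, ℤ)), ModGrowth (actHol g (hol i) : ℍ → ℂ)
  inv : ∀ (i : ι), ∀ γ ∈ G, actHol γ (hol i) = hol i
  sep : ∀ g : SL(2, ℤ), (∀ i, actHol g (hol i) = hol i) → g ∈ G
  /-- the index of `j` -/
  i₀ : ι
  gen_i₀ : gen i₀ = jq

namespace Lvl

variable (L : Lvl)

instance : Fintype L.ι := L.fin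

instance : NeZero L.h := ⟨L.h_ne⟩

/-- the rational function field -/
def F₀ : IntermediateField ℚ (LaurentSeries ℚ) := IntermediateField.adjoin ℚ (Set.range L.gen)

/-- the coset space -/
abbrev X : Type := SL(2, ℤ) ⧸ L.G

theorem gen_mem (i : L.ι) : L.gen i ∈ L.F₀ := IntermediateField.subset_adjoin _ _ ⟨i, rfl⟩

section Field

variable (K : Type*) [Field K] [Algebra ℚ K]

/-- The function field over `K`, as an intermediate field of `K((q))`. -/
abbrev FKf : IntermediateField K (LaurentSeries K) := laurentBaseChange K L.F₀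

/-- The function field over `K`. -/
abbrev FK : Type _ := ↥(L.FKf K)

/-- The generators over `K`. -/
def genK (i : L.ι) : L.FK K := ⟨coeffEmb K (L.gen i), coeffEmb_mem_laurentBaseChange _ (L.gen_mem i)⟩

@[simp] theorem coe_genK (i : L.ι) :
    ((L.genK K i : L.FK K) : LaurentSeries K) = coeffEmb K (L.gen i) := rfl

/-- `j`. -/
def jK : L.FK K := L.genK K L.i₀

variable {K}

/-- Generation principle. -/
theorem fk_le (S : Subfield (LaurentSeries K))
    (hK : ∀ a : K, algebraMap K (LaurentSeries K) a ∈ S)
    (hj : ∀ i, coeffEmb K (L.gen i) ∈ S) :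
    ∀ x ∈ L.FKf K, x ∈ S := by
  intro x hx
  rw [mem_laurentBaseChange_iff] at hx
  refine (Subfield.closure_le (t := S)).mpr ?_ hx
  rintro y (⟨a, rfl⟩ | ⟨z, hz, rfl⟩)
  · exact hK a
  · have hz' : z ∈ Subfield.closure
        (Set.range (algebraMap ℚ (LaurentSeries ℚ)) ∪ Set.range L.gen) := hz
    have : Subfield.closure (Set.range (algebraMap ℚ (LaurentSeries ℚ)) ∪ Set.range L.gen)
        ≤ S.comap (coeffEmb K) := by
      rw [Subfield.closure_le]
      rintro w (⟨r, rfl⟩ | ⟨i, rfl⟩)
      · show coeffEmb K (algebraMap ℚ (LaurentSeries ℚ) r) ∈ S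
        have : coeffEmb K (algebraMap ℚ (LaurentSeries ℚ) r)
            = algebraMap K (LaurentSeries K) (algebraMap ℚ K r) := by
          rw [algebraMap_laurentSeries_eq_single, algebraMap_laurentSeries_eq_single, coeffEmb,
            coeffMap_single]
        rw [this]; exact hK _
      · exact hj i
    exact this hz'

/-- A ring hom out of the function field maps it into a subfield `S` as soon as the constants and
the generators are mapped into `S`. -/
theorem map_mem_of_gen {E : Type*} [Field E] (φ : L.FK K →+* E) (S : Subfield E)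
    (hK : ∀ a : K, φ (algebraMap K (L.FK K) a) ∈ S)
    (hj : ∀ i, φ (L.genK K i) ∈ S) (x : L.FK K) : φ x ∈ S := by
  let S' : Subfield (LaurentSeries K) := (S.comap φ).map (L.FKf K).val.toRingHom
  have key : ∀ y ∈ L.FKf K, y ∈ S' := by
    apply L.fk_le
    · intro a
      exact ⟨algebraMap K (L.FK K) a, hK a, rfl⟩
    · intro i
      exact ⟨L.genK K i, hj i, rfl⟩
  obtain ⟨y, hy, hyx⟩ := key x x.2
  have : y = x := Subtype.ext hyx
  rw [← this]; exact hy

/-- A subfield of the function field containing the constants and the generators is everything. -/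
theorem mem_subfield_of_gen (S : Subfield (L.FK K))
    (hK : ∀ a : K, algebraMap K (L.FK K) a ∈ S)
    (hj : ∀ i, L.genK K i ∈ S) (x : L.FK K) : x ∈ S :=
  L.map_mem_of_gen (RingHom.id _) S hK hj x

/-- Two ring homs out of the function field agreeing on constants and generators agree. -/
theorem ringHom_ext_fk {E : Type*} [Field E] {φ ψ : L.FK K →+* E}
    (hK : ∀ a : K, φ (algebraMap K _ a) = ψ (algebraMap K _ a))
    (hj : ∀ i, φ (L.genK K i) = ψ (L.genK K i)) : φ = ψ := by
  ext x
  exact L.mem_subfield_of_gen (RingHom.eqLocusField φ ψ) hK hj x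

end Field

section Theta

variable {K : Type*} [Field K] [Algebra ℚ K] (ι : K →+* ℂ)

theorem coeffMap_coeffEmb (x : LaurentSeries ℚ) : coeffMap ι (coeffEmb K x) = coeffEmb ℂ x := by
  rw [coeffEmb, coeffEmb, coeffMap_coeffMap]
  exact coeffMap_congr (RingHom.ext fun r => by simp) x

theorem coeffMap_mem_range :
    ∀ x ∈ L.FKf K, coeffMap ι x ∈ (toLaurent 1).fieldRange := by
  apply L.fk_le ((toLaurent 1).fieldRange.comap (coeffMap ι))
  · intro a
    refine ⟨algebraMap ℂ (MerPer 1) (ι a), ?_⟩
    rw [toLaurent_const, algebraMap_laurentSeries_eq_single, coeffMap_single]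
    rfl
  · intro i
    exact ⟨L.per i, by rw [L.toLaurent_per, coeffMap_coeffEmb]⟩

/-- The embedding of the function field in fractions of `1`-periodic holomorphic functions,
characterised by `toLaurent 1 (thetaPer f) = coeffMap ι f`. -/
def thetaPer : L.FK K →+* MerPer 1 :=
  liftThrough (toLaurent 1) ((coeffMap ι).comp (L.FKf K).val.toRingHom)
    (fun x => L.coeffMap_mem_range ι x x.2)

theorem toLaurent_thetaPer (f : L.FK K) :
    toLaurent 1 (L.thetaPer ι f) = coeffMap ι (f : LaurentSeries K) :=
  liftThrough_spec _ _ _ f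

theorem thetaPer_eq_iff (f : L.FK K) (u : MerPer 1) :
    L.thetaPer ι f = u ↔ coeffMap ι (f : LaurentSeries K) = toLaurent 1 u :=
  liftThrough_eq_iff _ _ _ f u

theorem thetaPer_algebraMap (a : K) :
    L.thetaPer ι (algebraMap K _ a) = algebraMap ℂ (MerPer 1) (ι a) := by
  rw [thetaPer_eq_iff, toLaurent_const]
  show coeffMap ι (algebraMap K (LaurentSeries K) a) = _
  rw [algebraMap_laurentSeries_eq_single, coeffMap_single]
  rfl

theorem thetaPer_genK (i : L.ι) : L.thetaPer ι (L.genK K i) = L.per i := by
  rw [thetaPer_eq_iff, L.toLaurent_per, coe_genK, coeffMap_coeffEmb]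

/-- The embedding of the function field in `Mer`. -/
def thetaK : L.FK K →+* Mer := (toMer 1).comp (L.thetaPer ι)

theorem thetaK_apply (f : L.FK K) : L.thetaK ι f = toMer 1 (L.thetaPer ι f) := rfl

theorem thetaK_algebraMap (a : K) :
    L.thetaK ι (algebraMap K (L.FK K) a) = algebraMap ℂ Mer (ι a) := by
  rw [thetaK_apply, thetaPer_algebraMap, toMer_const]

theorem thetaK_genK (i : L.ι) : L.thetaK ι (L.genK K i) = algebraMap Hol Mer (L.hol i) := by
  rw [thetaK_apply, thetaPer_genK, L.toMer_per]

theorem thetaK_injective : Injective (L.thetaK ι) := (L.thetaK ι).injective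

/-- invariance under `G` -/
theorem actMer_thetaK {γ : SL(2, ℤ)} (hγ : γ ∈ L.G) (f : L.FK K) :
    actMer γ (L.thetaK ι f) = L.thetaK ι f := by
  have : (((actMer γ : Mer ≃ₐ[ℂ] Mer) : Mer →+* Mer).comp (L.thetaK ι)) = L.thetaK ι := by
    apply L.ringHom_ext_fk
    · intro a
      rw [RingHom.comp_apply, thetaK_algebraMap]
      exact AlgEquiv.commutes _ _
    · intro i
      rw [RingHom.comp_apply, thetaK_genK]
      show actMer γ _ = _
      rw [actMer_algebraMap, L.inv i γ hγ]
  exact congrArg (fun φ => φ f) this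

end Theta

/-- The Jacobian (degree zero divisor classes over `Qbar`), with its Galois action. -/
abbrev Jac : Type _ := AlgebraicCurve.Pic0 Kb (L.FKf Kb)

end Lvl

end

end Fermat.Agent.S48.ModL
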