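import Fermat.Agent.S48.ModL.Lvl
import Fermat.Agent.GAL.OpenStab

/-!
# S48 / MODL : open stabilisers of the torsion points of `L.Jac`  ([P-OS])

`GAL/OpenStab` is already stated for an arbitrary rational function field `F₀`; this file only
specialises it to `F₀ = L.F₀`.
-/

set_option autoImplicit false

namespace Fermat.Agent.S48.ModL

open ModularCurve AlgebraicCurve Fermat.Agent.S24

local notation "GQ" => (AlgebraicClosure ℚ ≃ₐ[ℚ] AlgebraicClosure ℚ)

variable (L : Lvl)

/-- Every function of level `L` is fixed by an open subgroup of `G_ℚ`. -/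
theorem exists_finiteLevel_function (f : L.FK Kb) :
    ∃ E : IntermediateField ℚ Kb, FiniteDimensional ℚ E ∧
      ∀ σ : GQ, (∀ y ∈ E, σ y = y) → arithmeticGalois L.F₀ σ • f = f :=
  Fermat.Agent.GAL.exists_finiteLevel_function L.F₀ f

/-- **Open stabilisers** of the torsion points of `L.Jac`. -/
theorem openStab_of_torsion (m : ℕ) (hm : m ≠ 0) (x : L.Jac) (hx : m • x = 0) :
    ∃ E : IntermediateField ℚ Kb, FiniteDimensional ℚ E ∧
      ∀ σ : GQ, (∀ y ∈ E, σ y = y) → σ • x = x :=
  Fermat.Agent.GAL.openStab_of_torsion_pic0 L.F₀ m hm x hx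

end Fermat.Agent.S48.ModL
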