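import Fermat.Agent.S48.ModL.GlueAbs
import Fermat.Agent.S48.ModL.Sup.Main
import Fermat.Agent.S48.ModL.OpenStab
import Fermat.Agent.S48.ModL.AD.Basic

/-!
# S48 / MODL : abstract assembly for a level `L`

From
* the Kummer homomorphism (`Sup/Main`), open stabilisers (`OpenStab`), the glue (`GlueAbs`),
* operators `T p`, `Dm p` on `L.Jac` commuting with Galois, the unramifiedness and the
  Eichler–Shimura relation on `L.Jac[ℓ]` (blocks [H], [ES], [R]),
* a `k`-valued character `c` of `L.G`, zero on small elements (block [EC]),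
* the Kummer equivariance in "eigen" form (block [H], K3 + the eigen-relations of `c`),
we get the mod `ℓ` representation.
-/

set_option autoImplicit false

namespace Fermat.Agent.S48.ModL

open Fermat.Agent.S24 CongruenceSubgroup ModularCurve AlgebraicCurve
open scoped MatrixGroups

local notation "Qbar" => AlgebraicClosure ℚ
local notation "GQ" => (AlgebraicClosure ℚ ≃ₐ[ℚ] AlgebraicClosure ℚ)

/-- `Hom(L.G, ℤ/m)` is finite. -/
theorem finite_addHom_G (L : Lvl) (m : ℕ) [NeZero m] : Finite (Additive L.G →+ ZMod m) := by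
  have h0 : Group.FG SL(2, ℤ) :=
    Group.fg_iff.mpr ⟨{ModularGroup.S, ModularGroup.T}, SpecialLinearGroup.SL2Z_generators,
      by simp⟩
  have hfg : Group.FG L.G := Subgroup.fg_of_index_ne_zero _
  obtain ⟨S, hS, hSfin⟩ := Group.fg_iff.mp hfg
  have : Finite S := hSfin
  let f : (Additive L.G →+ ZMod m) → (S → ZMod m) :=
    fun c s => c (Additive.ofMul (s : L.G))
  refine Finite.of_injective f fun c c' h => ?_
  have h1 : (AddMonoidHom.toMultiplicativeRight c) = (AddMonoidHom.toMultiplicativeRight c') := by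
    refine MonoidHom.eq_of_eqOn_dense hS fun s hs => ?_
    exact congrArg Multiplicative.ofAdd (congrFun h ⟨s, hs⟩)
  exact AddMonoidHom.toMultiplicativeRight.injective h1

/-- the good character `lam ∘ c`. -/
def famHom (L : Lvl) {ℓ : ℕ} {k : Type} [Field k] (c : Additive L.G →+ k)
    (hcs : ∀ γ : L.G, IsSmall γ → c (Additive.ofMul γ) = 0) :
    (k →+ ZMod ℓ) →+ GoodHom L ℓ where
  toFun lam := ⟨lam.comp c, fun γ hγ => by rw [AddMonoidHom.comp_apply, hcs γ hγ, map_zero]⟩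
  map_zero' := rfl
  map_add' _ _ := rfl

theorem famHom_apply (L : Lvl) {ℓ : ℕ} {k : Type} [Field k] (c : Additive L.G →+ k)
    (hcs : ∀ γ : L.G, IsSmall γ → c (Additive.ofMul γ) = 0) (lam : k →+ ZMod ℓ) (γ : L.G) :
    (famHom L c hcs lam : Additive L.G →+ ZMod ℓ) (Additive.ofMul γ) =
      lam (c (Additive.ofMul γ)) := rfl

/-- **MODL, abstract assembly.** -/
theorem exists_attached_of_lvl (L : Lvl) {ℓ : ℕ} (hℓ : ℓ.Prime) {k : Type} [Field k]
    [IsAlgClosed k] [CharP k ℓ] {M : ℕ} (hM : M ≠ 0) (t d : ℕ → k) (χ : GQ →* k)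
    (hχ : IsDetChar χ M d)
    (T Dm : ℕ → (L.Jac →+ L.Jac))
    (hGT : ∀ p : ℕ, p.Prime → ¬ p ∣ M → ∀ (σ : GQ) (x : L.Jac), σ • T p x = T p (σ • x))
    (hGD : ∀ p : ℕ, p.Prime → ¬ p ∣ M → ∀ (σ : GQ) (x : L.Jac), σ • Dm p x = Dm p (σ • x))
    (hunr : ∀ p : ℕ, p.Prime → ¬ p ∣ M → ∀ A : ValuationSubring Qbar, A.LiesOverPrime p →
      ∀ σ ∈ A.inertiaSubgroupIn ℚ, ∀ x : L.Jac, ℓ • x = 0 → σ • x = x)
    (hquad : ∀ p : ℕ, p.Prime → ¬ p ∣ M → ∀ A : ValuationSubring Qbar,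
      A.LiesOverPrime p → ∀ σ : GQ, A.IsFrobeniusAt σ p → ∀ x : L.Jac, ℓ • x = 0 →
        σ • σ • Dm p x - T p (σ • x) + p • x = 0)
    (a e : ℕ → k)
    (hat : ∀ p : ℕ, p.Prime → ¬ p ∣ M → a p = e p * t p)
    (hcd : ∀ p : ℕ, p.Prime → ¬ p ∣ M → (p : k) = e p * d p)
    (he0 : ∀ p : ℕ, p.Prime → ¬ p ∣ M → e p ≠ 0)
    (c : Additive L.G →+ k) (hc0 : c ≠ 0)
    (hcs : ∀ γ : L.G, IsSmall γ → c (Additive.ofMul γ) = 0)
    (hKT : haveI : NeZero ℓ := ⟨hℓ.ne_zero⟩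
      ∀ p : ℕ, p.Prime → ¬ p ∣ M → ∀ (lam : k →+ ZMod ℓ) (x : L.Jac),
      IsKummer L ℓ (chiOf (famHom L c hcs lam : Additive L.G →+ ZMod ℓ)) x →
      IsKummer L ℓ (chiOf (famHom L c hcs (lam.comp (AddMonoidHom.mulLeft (a p))) :
        Additive L.G →+ ZMod ℓ)) (T p x))
    (hKD : haveI : NeZero ℓ := ⟨hℓ.ne_zero⟩
      ∀ p : ℕ, p.Prime → ¬ p ∣ M → ∀ (lam : k →+ ZMod ℓ) (x : L.Jac),
      IsKummer L ℓ (chiOf (famHom L c hcs lam : Additive L.G →+ ZMod ℓ)) x →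
      IsKummer L ℓ (chiOf (famHom L c hcs (lam.comp (AddMonoidHom.mulLeft (e p))) :
        Additive L.G →+ ZMod ℓ)) (Dm p x)) :
    ∃ ρ : ResidualGaloisRep k, Attached ρ M t d := by
  haveI : NeZero ℓ := ⟨hℓ.ne_zero⟩
  haveI : Fact ℓ.Prime := ⟨hℓ⟩
  obtain ⟨κ, hκinj, hκ⟩ := exists_kummerHom L ℓ
  refine exists_attached_of_family (ℓ := ℓ) hM t d χ hχ T Dm hGT hGD
    (fun x hx => openStab_of_torsion L ℓ hℓ.ne_zero x hx) hunr hquad a e hat hcd he0
    (κ.comp (famHom L c hcs)) ?_ ?_ ?_ ?_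
  · intro h0
    apply hc0
    refine AddMonoidHom.ext fun γ => ?_
    let _ : Algebra (ZMod ℓ) k := ZMod.algebra k ℓ
    rw [AddMonoidHom.zero_apply, ← Module.forall_dual_apply_eq_zero_iff (ZMod ℓ)]
    intro f
    have h1 : κ (famHom L c hcs f.toAddMonoidHom) = 0 := DFunLike.congr_fun h0 f.toAddMonoidHom
    have h2 : famHom L c hcs f.toAddMonoidHom = 0 := hκinj (by rw [h1, map_zero])
    have h3 := famHom_apply L c hcs f.toAddMonoidHom (Additive.toMul γ)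
    rw [h2] at h3
    exact h3.symm
  · have := finite_addHom_G L ℓ
    have : Finite (GoodHom L ℓ) := Finite.of_injective _ Subtype.val_injective
    refine (Set.finite_range κ).subset ?_
    rintro _ ⟨lam, rfl⟩
    exact ⟨famHom L c hcs lam, rfl⟩
  · intro p hp hpM lam
    exact (hKT p hp hpM lam _ (hκ _)).unique (hκ _)
  · intro p hp hpM lam
    exact (hKD p hp hpM lam _ (hκ _)).unique (hκ _)

end Fermat.Agent.S48.ModL
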