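import Fermat.Agent.S48.ModL.Y.Inst
import Fermat.Agent.S48.ModL.Assemble
import Fermat.Agent.S48.ModL.EC.Main

/-!
# S48 / MODL / Top : `hasModL` from the blocks (owner helper72)

* `rawY`, `IsRawTransferY`, `IsConjChar`, `K3T`, `K3D` : the interface with block [H] (K3).
* `HeckeES M hM ℓ T Dm` : everything that is needed of the operators `T p = α_* β^*` (raw
  correspondence) and `Dm p = δ_p` (diamond with `θ (δ_p u) = actMer s (θ u)`, `s ∈ Γ₀(M²)`,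
  `s 1 1 ≡ p` mod `M`) on `J = (lvlY M hM).Jac`.
* `ExistsHeckeES` : the statement of blocks [H] + [ES] + [R], proved in `ModL/Final.lean`.
* `attached_of_eigenCharY`, `hasModL_of` : sorry-free consequences.
-/

set_option autoImplicit false

open UpperHalfPlane hiding I
open Function ModularCurve CongruenceSubgroup
open scoped MatrixGroups
open Fermat.Agent.S24
open Matrix.SpecialLinearGroup (mapGL)

namespace Fermat.Agent.S48.ModL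

local notation "Qbar" => AlgebraicClosure ℚ
local notation "GQ" => (AlgebraicClosure ℚ ≃ₐ[ℚ] AlgebraicClosure ℚ)

/-- the raw representatives of `GY M \ GY M diag(p,1) GY M` : `diag(p,1)` and
`s⁻¹ [[1,b],[0,p]]`. -/
noncomputable def rawY (p : ℕ) (s : SL(2, ℤ)) (x : OnePoint (ZMod p)) : GL (Fin 2) ℝ :=
  (mapGL ℝ s)⁻¹ * repY p s x

/-- `χ'` is the raw transfer of `χ`. -/
def IsRawTransferY {M : ℕ} (p : ℕ) [NeZero p] (s : SL(2, ℤ)) (χ χ' : GY M →* ℂˣ) : Prop :=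
  ∀ (γ : GY M) (σ : Equiv.Perm (OnePoint (ZMod p))) (d : OnePoint (ZMod p) → GY M),
    (∀ x, rawY p s x * mapGL ℝ (γ : SL(2, ℤ)) = mapGL ℝ (d x : SL(2, ℤ)) * rawY p s (σ x)) →
      χ' γ = ∏ x, χ (d x)

/-- `χ' γ = χ (s⁻¹ γ s)`. -/
def IsConjChar {M : ℕ} (s : SL(2, ℤ)) (χ χ' : GY M →* ℂˣ) : Prop :=
  ∀ γ γ' : GY M, (γ' : SL(2, ℤ)) = s⁻¹ * γ * s → χ' γ = χ γ'

/-- **Interface (K3) for `T p`.** -/
def K3T (M : ℕ) [NeZero M] (hM : 2 < M) (ℓ : ℕ)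
    (T : ℕ → ((Y.lvlY M hM).Jac →+ (Y.lvlY M hM).Jac)) : Prop :=
  ∀ p : ℕ, (hp : p.Prime) → ¬ p ∣ M → ∃ s : SL(2, ℤ), s ∈ Gamma0 (M ^ 2) ∧
    ((s 1 1 : ℤ) : ZMod M) = p ∧
    haveI : NeZero p := ⟨hp.ne_zero⟩
    ∀ (χ χ' : GY M →* ℂˣ) (x : (Y.lvlY M hM).Jac), IsKummer (Y.lvlY M hM) ℓ χ x →
      IsRawTransferY p s χ χ' → IsKummer (Y.lvlY M hM) ℓ χ' (T p x)

/-- **Interface (K3) for the diamond `Dm p`.** -/
def K3D (M : ℕ) [NeZero M] (hM : 2 < M) (ℓ : ℕ)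
    (Dm : ℕ → ((Y.lvlY M hM).Jac →+ (Y.lvlY M hM).Jac)) : Prop :=
  ∀ p : ℕ, p.Prime → ¬ p ∣ M → ∃ s : SL(2, ℤ), s ∈ Gamma0 (M ^ 2) ∧
    ((s 1 1 : ℤ) : ZMod M) = p ∧
    ∀ (χ χ' : GY M →* ℂˣ) (x : (Y.lvlY M hM).Jac), IsKummer (Y.lvlY M hM) ℓ χ x →
      IsConjChar s χ χ' → IsKummer (Y.lvlY M hM) ℓ χ' (Dm p x)

/-- What is needed of the operators `T p`, `Dm p`. -/
structure HeckeES (M : ℕ) [NeZero M] (hM : 2 < M) (ℓ : ℕ)
    (T Dm : ℕ → ((Y.lvlY M hM).Jac →+ (Y.lvlY M hM).Jac)) : Prop where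
  galT : ∀ p : ℕ, p.Prime → ¬ p ∣ M → ∀ (σ : GQ) (x : (Y.lvlY M hM).Jac),
    σ • T p x = T p (σ • x)
  galD : ∀ p : ℕ, p.Prime → ¬ p ∣ M → ∀ (σ : GQ) (x : (Y.lvlY M hM).Jac),
    σ • Dm p x = Dm p (σ • x)
  unr : ∀ p : ℕ, p.Prime → ¬ p ∣ M → ∀ A : ValuationSubring Qbar, A.LiesOverPrime p →
    ∀ σ ∈ A.inertiaSubgroupIn ℚ, ∀ x : (Y.lvlY M hM).Jac, ℓ • x = 0 → σ • x = x
  quad : ∀ p : ℕ, p.Prime → ¬ p ∣ M → ∀ A : ValuationSubring Qbar,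
    A.LiesOverPrime p → ∀ σ : GQ, A.IsFrobeniusAt σ p → ∀ x : (Y.lvlY M hM).Jac, ℓ • x = 0 →
      σ • σ • Dm p x - T p (σ • x) + p • x = 0
  k3T : K3T M hM ℓ T
  k3D : K3D M hM ℓ Dm

/-- **Blocks [H] + [ES] + [R]**: the statement proved in `ModL/Final.lean`. -/
def ExistsHeckeES : Prop :=
  ∀ (M : ℕ) [NeZero M] (hM : 2 < M) (_ : ¬ M ∣ 4) (_ : 2 ∣ M ∨ 3 ∣ M) (ℓ : ℕ)
    (_ : ℓ.Prime) (_ : ℓ ∣ M),
    ∃ T Dm : ℕ → ((Y.lvlY M hM).Jac →+ (Y.lvlY M hM).Jac), HeckeES M hM ℓ T Dm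

theorem chiOf_eq_prod (L : Lvl) {ℓ : ℕ} [NeZero ℓ] (c c' : Additive L.G →+ ZMod ℓ) (γ : L.G)
    {ι : Type*} [Fintype ι] (d : ι → L.G)
    (h : c' (Additive.ofMul γ) = ∑ x, c (Additive.ofMul (d x))) :
    chiOf c' γ = ∏ x, chiOf c (d x) := by
  ext
  rw [coe_chiOf, h, Units.coe_prod]
  exact map_sum (ZMod.stdAddChar (N := ℓ)).toAddMonoidHom _ _

theorem chiOf_eq_of_eq (L : Lvl) {ℓ : ℕ} [NeZero ℓ] (c c' : Additive L.G →+ ZMod ℓ) (γ γ' : L.G)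
    (h : c' (Additive.ofMul γ) = c (Additive.ofMul γ')) : chiOf c' γ = chiOf c γ' := by
  ext
  rw [coe_chiOf, coe_chiOf, h]

/-- the conversion `repY` ↔ `rawY`. -/
theorem repY_mul_of_rawY {p : ℕ} {s : SL(2, ℤ)} {γ : SL(2, ℤ)}
    {x y : OnePoint (ZMod p)} {d : SL(2, ℤ)}
    (h : rawY p s x * mapGL ℝ γ = mapGL ℝ d * rawY p s y) :
    repY p s x * mapGL ℝ γ = mapGL ℝ (s * d * s⁻¹) * repY p s y := by
  unfold rawY at h
  rw [map_mul, map_mul, map_inv]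
  have h2 := congrArg (fun z => mapGL ℝ s * z) h
  simp only [← mul_assoc, mul_inv_cancel, one_mul] at h2
  rw [h2]

theorem attached_of_eigenCharY (M : ℕ) [NeZero M] (hM : 2 < M) (ℓ : ℕ) (hℓ : ℓ.Prime)
    {k : Type} [Field k] [IsAlgClosed k] [CharP k ℓ] (t e : ℕ → k)
    (χ : GQ →* k) (hχ : IsDetChar χ M e) (he0 : ∀ p : ℕ, p.Prime → ¬ p ∣ M → e p ≠ 0)
    (hp0 : ∀ p : ℕ, p.Prime → ¬ p ∣ M → (p : k) ≠ 0)
    (hEC : EigenCharY M t e)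
    (T Dm : ℕ → ((Y.lvlY M hM).Jac →+ (Y.lvlY M hM).Jac)) (H : HeckeES M hM ℓ T Dm) :
    ∃ ρ : ResidualGaloisRep k, Attached ρ M t e := by
  have : NeZero ℓ := ⟨hℓ.ne_zero⟩
  obtain ⟨c, hc0, hcs, hc⟩ := hEC
  refine exists_attached_of_lvl (Y.lvlY M hM) hℓ (NeZero.ne M) t e χ hχ T Dm H.galT H.galD H.unr
    H.quad (fun p => (p : k) / e p * t p) (fun p => (p : k) / e p) (fun p _ _ => rfl)
    (fun p hp hpM => by field_simp [he0 p hp hpM])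
    (fun p hp hpM => div_ne_zero (hp0 p hp hpM) (he0 p hp hpM)) c hc0 hcs ?_ ?_
  · intro p hp hpM lam x hx
    obtain ⟨s, hs, hsp, hK⟩ := H.k3T p hp hpM
    have : NeZero p := ⟨hp.ne_zero⟩
    refine hK _ _ x hx ?_
    intro γ σ d hd
    obtain ⟨hc1, hc2⟩ := hc p hp hpM s hs hsp
    let d' : OnePoint (ZMod p) → GY M := fun x => ⟨s * d x * s⁻¹, EC.conj_mem_GY hs (d x).2⟩
    have h1 := hc2 γ σ d' (fun x => repY_mul_of_rawY (hd x))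
    have h2 : ∀ x, c (Additive.ofMul (d x)) = (p : k) / e p * c (Additive.ofMul (d' x)) := by
      intro x
      have := hc1 (d x) (d' x) rfl
      field_simp [he0 p hp hpM]
      linear_combination -this
    have h3 : ∑ x, c (Additive.ofMul (d x)) = (p : k) / e p * t p * c (Additive.ofMul γ) := by
      simp only [h2]
      rw [← Finset.mul_sum, h1, mul_assoc]
    refine chiOf_eq_prod (Y.lvlY M hM) _ _ γ d ?_
    show lam ((p : k) / e p * t p * c (Additive.ofMul γ)) = ∑ x, lam (c (Additive.ofMul (d x)))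
    rw [← h3, map_sum]
  · intro p hp hpM lam x hx
    obtain ⟨s, hs, hsp, hK⟩ := H.k3D p hp hpM
    refine hK _ _ x hx ?_
    intro γ γ' hγ'
    obtain ⟨hc1, -⟩ := hc p hp hpM s hs hsp
    have h1 := hc1 γ' γ (by rw [hγ']; group)
    have h2 : c (Additive.ofMul γ') = (p : k) / e p * c (Additive.ofMul γ) := by
      field_simp [he0 p hp hpM]
      linear_combination -h1
    refine chiOf_eq_of_eq (Y.lvlY M hM) _ _ γ γ' ?_
    show lam ((p : k) / e p * c (Additive.ofMul γ)) = lam (c (Additive.ofMul γ'))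
    rw [h2]

/-- **(MODL)**, in the exact shape of `Forms/Top.hasModL`, from `ExistsHeckeES`. -/
theorem hasModL_of (hES : ExistsHeckeES)
    {N : ℕ} [NeZero N] {ε : DirichletCharacter ℂ N} {f : CuspForm (Gamma1 N) 1}
    (h : Eigen N ε f) (a e : ℕ → OO)
    (ha : ∀ p : ℕ, p.Prime → ¬ p ∣ N → (a p : ℂ) = ModularFormClass.qCoeff f p)
    (he : ∀ p : ℕ, (e p : ℂ) = ε (p : ZMod N)) (c : ℕ) (hc : c = 2 ∨ c = 3) :
    ∃ ℓ₀ : ℕ, ∀ ℓ : ℕ, ℓ.Prime → ℓ₀ ≤ ℓ → HasModL (N * c) a e ℓ := by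
  refine ⟨3, fun ℓ hℓ hℓ3 k _ _ φ hφ => ?_⟩
  have hc0 : c ≠ 0 := by rcases hc with rfl | rfl <;> norm_num
  have : NeZero (N * c * ℓ) := ⟨mul_ne_zero (mul_ne_zero (NeZero.ne N) hc0) hℓ.ne_zero⟩
  have : CharP k ℓ := (CharP.charP_iff_prime_eq_zero hℓ).mpr hφ
  have hN : N ∣ N * c * ℓ := ⟨c * ℓ, by ring⟩
  have hL : ℓ ∣ N * c * ℓ := ⟨N * c, by ring⟩
  have hM : 2 < N * c * ℓ := by
    have h1 : 0 < N * c := Nat.pos_of_ne_zero (mul_ne_zero (NeZero.ne N) hc0)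
    nlinarith
  have h23 : 2 ∣ N * c * ℓ ∨ 3 ∣ N * c * ℓ := by
    rcases hc with rfl | rfl
    · exact Or.inl ⟨N * ℓ, by ring⟩
    · exact Or.inr ⟨N * ℓ, by ring⟩
  obtain ⟨χ, hχ⟩ := exists_dirichlet_galoisChar N ε e he φ hN
  have hM4 : ¬ N * c * ℓ ∣ 4 := by
    intro h4
    have h1 : ℓ ∣ 2 ^ 2 := hL.trans h4
    have h2 : ℓ ∣ 2 := hℓ.dvd_of_dvd_pow h1
    have h3 := Nat.le_of_dvd (by norm_num) h2
    omega
  obtain ⟨T, Dm, H⟩ := hES (N * c * ℓ) hM hM4 h23 ℓ hℓ hL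
  refine attached_of_eigenCharY (N * c * ℓ) hM ℓ hℓ _ _ χ hχ ?_ ?_
    (EC.eigenCharY h a e ha he c hc0 ℓ hℓ (by omega) k φ hφ) T Dm H
  · -- `φ (e p) ≠ 0`
    intro p hp hpM h0
    have hcop : Nat.Coprime p N :=
      (Nat.Prime.coprime_iff_not_dvd hp).2 fun h' => hpM (h'.trans hN)
    have h1 : e p ^ N.totient = 1 := by
      apply Subtype.ext
      push_cast
      rw [he, ← map_pow, ← Nat.cast_pow]
      have := ZMod.pow_totient (ZMod.unitOfCoprime p hcop)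
      have h2 := congrArg (Units.val) this
      rw [Units.val_pow_eq_pow_val, ZMod.coe_unitOfCoprime, Units.val_one] at h2
      rw [Nat.cast_pow, h2, map_one]
    have h2 := congrArg φ h1
    rw [map_pow, h0, map_one, zero_pow (Nat.totient_pos.mpr (Nat.pos_of_ne_zero (NeZero.ne N))).ne']
      at h2
    exact zero_ne_one h2
  · -- `(p : k) ≠ 0`
    intro p hp hpM h0
    have h1 : ℓ ∣ p := (CharP.cast_eq_zero_iff k ℓ p).mp h0
    have h2 : ℓ = p := (Nat.prime_dvd_prime_iff_eq hℓ hp).mp h1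
    exact hpM (h2 ▸ hL)

end Fermat.Agent.S48.ModL
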