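import Fermat.Agent.S48.ModL.Igusa.K1
import Fermat.Agent.S48.ModL.Igusa.Final
import Fermat.Agent.S48.ModL.Genus.Resolvent
import Fermat.Agent.S48.ModL.F.Dia
import Fermat.Agent.RED.S18Main
import Fermat.Agent.RR.Hurwitz

/-!
# S48 / MODL / Plug : block [R] = `exists_norm_K1` (owner helper72)

From `Igusa.exists_hyp_lvlY`, `Igusa.Hyp.K1_of_kummer`, `Genus.exists_kummer_basis` and the genus
inequality at level `M²` (`RED.gen_of_rhRel`).
-/

set_option autoImplicit false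
set_option linter.unusedSectionVars false
set_option linter.style.haveILetI false
set_option synthInstance.maxHeartbeats 400000

open Function ModularCurve CongruenceSubgroup AlgebraicCurve
open scoped MatrixGroups
open Fermat.Agent.S24 Fermat.Agent.RED Fermat.Agent.RED.Gauss

namespace Fermat.Agent.S48.ModL

open Y F

noncomputable section

theorem gFb_gaussNormBar (A : ValuationSubring Kb) (N : ℕ) [NeZero N] {ℓ : ℕ} [Fact ℓ.Prime]
    (hA : A.LiesOverPrime ℓ) (hℓN : ¬ ℓ ∣ N) :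
    gFb (gaussNormBar A N hA hℓN) =
      modularFunctionFieldFullC (IsLocalRing.ResidueField A) N := by
  apply le_antisymm
  · rintro _ ⟨x, rfl⟩
    exact ((gaussData A N hA hℓN).red x).2
  · exact fullC_le_gFb _ _

theorem gR_le_gFb (A : ValuationSubring Kb) (N : ℕ) [NeZero N] {ℓ : ℕ} [Fact ℓ.Prime]
    (hA : A.LiesOverPrime ℓ) (hℓN : ¬ ℓ ∣ N) (h49 : 4 ∣ N ∨ 9 ∣ N) :
    gR Kb (modularFunctionFieldBar N) ≤
      gR (IsLocalRing.ResidueField A) (gFb (gaussNormBar A N hA hℓN)) := by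
  haveI := charP_residueField A hA
  haveI := isAlgClosed_residueField A
  rw [gFb_gaussNormBar A N hA hℓN]
  exact gen_of_rhRel (ℓ := ℓ) N (fun _ _ _ _ _ _ _ _ _ _ _ _ h1 h2 => Fermat.Agent.RR.rhRel h1 h2)
    h49 _ hℓN

variable (M : ℕ) [NeZero M] (hM : 2 < M) (hM4 : ¬ M ∣ 4)

theorem bar_le_FKf : modularFunctionFieldBar (M ^ 2) ≤ (lvlY M hM).FKf Kb :=
  laurentBaseChange_mono_diam (full_le_F₀ M hM)

/-- the inclusion of the function field of `X₀(M²)`. -/
@[instance_reducible] def algY : Algebra (FN (M ^ 2)) ((lvlY M hM).FK Kb) :=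
  (IntermediateField.inclusion (bar_le_FKf M hM)).toRingHom.toAlgebra

theorem algebraMap_algY :
    @algebraMap (FN (M ^ 2)) ((lvlY M hM).FK Kb) _ _ (algY M hM) =
      (IntermediateField.inclusion (bar_le_FKf M hM)).toRingHom :=
  RingHom.algebraMap_toAlgebra _

theorem coe_algY (z : FN (M ^ 2)) :
    letI := algY M hM
    ((algebraMap (FN (M ^ 2)) ((lvlY M hM).FK Kb) z : (lvlY M hM).FK Kb) : LaurentSeries Kb) =
      z := by
  rw [algebraMap_algY]
  exact IntermediateField.coe_inclusion (bar_le_FKf M hM) z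

theorem isScalarTower_algY :
    letI := algY M hM
    IsScalarTower Kb (FN (M ^ 2)) ((lvlY M hM).FK Kb) := by
  letI := algY M hM
  refine IsScalarTower.of_algebraMap_eq fun c => ?_
  rw [algebraMap_algY]
  exact ((IntermediateField.inclusion (bar_le_FKf M hM)).commutes c).symm

theorem iota_J_mem (A : ValuationSubring Kb) :
    iota A (qExpand A M (jqModC A)) ∈ modularFunctionFieldBar (M ^ 2) := by
  have hiJ : iota A (qExpand A M (jqModC A)) = coeffEmb Kb (qExpand ℚ M jq) := by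
    rw [Igusa.coeffEmb_qExpand_jq]; exact Fermat.Agent.S28.coeffMap_qExpand_jqModC _ M
  rw [hiJ]
  refine coeffEmb_mem_laurentBaseChange Kb (IntermediateField.subset_adjoin _ _ ?_)
  exact ⟨M, inferInstance, Dvd.intro_left (M ^ 1) (by ring), rfl⟩

theorem isSepParam_algY :
    letI := algY M hM
    IsSepParam Kb (algebraMap (FN (M ^ 2)) ((lvlY M hM).FK Kb) (jF (M ^ 2))) := by
  letI := algY M hM
  haveI := isScalarTower_algY M hM
  have e : algebraMap (FN (M ^ 2)) ((lvlY M hM).FK Kb) (jF (M ^ 2)) = (lvlY M hM).jK Kb :=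
    Genus.algebraMap_jBar M hM (coe_algY M hM) 1 (one_dvd _)
  rw [e]
  exact IsSepParam.of_charZero ((lvlY M hM).isFiniteParam_jK iotaK.toRingHom)

set_option maxHeartbeats 1000000 in
/-- **Block [R]**. -/
theorem exists_norm_K1_plug (h23 : 2 ∣ M ∨ 3 ∣ M) (p : ℕ) (hp : p.Prime) (hpM : ¬ p ∣ M)
    (A : ValuationSubring Kb) (hA : A.LiesOverPrime p) :
    ∃ hN : Norm (IsLocalRing.residue A) ((lvlY M hM).FKf Kb),
      (∀ m : ℕ, m ≠ 0 → ¬ p ∣ m → K1 hN m) ∧
      ∀ y : gO hN, dia M hM hM4 p • (y : (lvlY M hM).FK Kb) ∈ gO hN := by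
  haveI : Fact p.Prime := ⟨hp⟩
  haveI := charP_residueField A hA
  haveI := isAlgClosed_residueField A
  have hpM2 : ¬ p ∣ M ^ 2 := fun h => hpM (hp.dvd_of_dvd_pow h)
  have h49 : 4 ∣ M ^ 2 ∨ 9 ∣ M ^ 2 := by
    rcases h23 with ⟨m, rfl⟩ | ⟨m, rfl⟩
    · exact Or.inl ⟨m ^ 2, by ring⟩
    · exact Or.inr ⟨m ^ 2, by ring⟩
  obtain ⟨n, x, H⟩ := Igusa.exists_hyp_lvlY M hM hM4 A hA hpM
  letI := algY M hM
  haveI := isScalarTower_algY M hM
  have hcoe := coe_algY M hM
  have hfr := Genus.finrank_eq_card_CY M hM hM4 hcoe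
  haveI : FiniteDimensional (FN (M ^ 2)) ((lvlY M hM).FK Kb) :=
    Module.finite_of_finrank_pos (by rw [hfr]; exact Nat.card_pos)
  obtain ⟨I, _, R, r, a, E, hli, hcard, hr, ha, hE⟩ := Genus.exists_kummer_basis M hM hM4 hcoe h23
  obtain ⟨w, HC, hK⟩ := H.K1_of_kummer (gaussNormBar A (M ^ 2) hA hpM2) (iota_J_mem M A) hcoe
    (Genus.CY M hM hM4)
    (fun c hc z => Genus.smul_algebraMap_of_mem_CY M hM hM4 hcoe c hc z) hfr.le
    (isSepParam_jF (M ^ 2)) (isSepParam_algY M hM) R hli hcard hr a ha E hE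
    (gR_le_gFb A (M ^ 2) hA hpM2 h49)
  refine ⟨HC.toNorm, fun m _ hm => hK m ?_, fun y => ?_⟩
  · rwa [Ne, CharP.cast_eq_zero_iff (IsLocalRing.ResidueField A) p]
  · rw [dia_smul_eq_toGF]
    exact H.smul_mem_gO HC.toNorm _ y.2

end

end Fermat.Agent.S48.ModL
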