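import Fermat.Agent.S48.ModL.Hecke.DiamY
import Fermat.Agent.S48.ModL.Hecke.K3
import Fermat.Agent.S48.ModL.Hecke.NormQ
import Fermat.Agent.S48.ModL.Hecke.GYCompat
import Fermat.Agent.S48.ModL.ESAbs
import Fermat.Agent.RED.Gauss.Bridge
import Fermat.Agent.S48.ModL.Plug

/-!
# S48 / MODL / Final : the final wiring `exists_heckeES`, `hasModL` (owner helper72)

`T p := Lvl.heckeRaw (isHeckeCompat_GY ..).conjP` (block [H], `Hecke/`), `Dm p := F.Dm` (`F/Dia`),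
`unr`, `quad` from `esUnram`, `esQuad` (`ESAbs`), `congrD_diam` (`Hecke/NormQ`) and block [R]
(`exists_norm_K1`).
-/

set_option autoImplicit false
set_option linter.unusedSectionVars false
set_option linter.style.haveILetI false

open UpperHalfPlane hiding I
open Function ModularCurve CongruenceSubgroup AlgebraicCurve
open scoped MatrixGroups
open Fermat.Agent.S24 Fermat.Agent.RED.Gauss
open Matrix.SpecialLinearGroup (mapGL)

namespace Fermat.Agent.S48.ModL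

open Y F

noncomputable section

variable (M : ℕ) [NeZero M] (hM : 2 < M) (hM4 : ¬ M ∣ 4)

/-- **Block [R]** (`ModL/Plug.lean`). -/
theorem exists_norm_K1 (h23 : 2 ∣ M ∨ 3 ∣ M) (p : ℕ) (hp : p.Prime) (hpM : ¬ p ∣ M)
    (A : ValuationSubring Kb) (hA : A.LiesOverPrime p) :
    ∃ hN : Norm (IsLocalRing.residue A) ((lvlY M hM).FKf Kb),
      (∀ m : ℕ, m ≠ 0 → ¬ p ∣ m → K1 hN m) ∧
      ∀ y : gO hN, dia M hM hM4 p • (y : (lvlY M hM).FK Kb) ∈ gO hN :=
  exists_norm_K1_plug M hM hM4 h23 p hp hpM A hA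

theorem coprime_of_prime {p : ℕ} (hp : p.Prime) (hpM : ¬ p ∣ M) : Nat.Coprime p M :=
  (Nat.Prime.coprime_iff_not_dvd hp).2 hpM

theorem compatY {p : ℕ} [hp : Fact p.Prime] (hpM : ¬ p ∣ M) :
    IsHeckeCompat (lvlY M hM).G p (sP M p) :=
  isHeckeCompat_GY hpM (sP_mem M (coprime_of_prime M hp.out hpM))
    (sP_entry M (coprime_of_prime M hp.out hpM))

open Classical in
/-- the raw Hecke operators of `lvlY M`. -/
def TH (p : ℕ) : (lvlY M hM).Jac →+ (lvlY M hM).Jac :=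
  if h : p.Prime ∧ ¬ p ∣ M then
    haveI : Fact p.Prime := ⟨h.1⟩
    Lvl.heckeRaw (compatY M hM h.2).conjP
  else 0

theorem TH_eq {p : ℕ} [hp : Fact p.Prime] (hpM : ¬ p ∣ M) :
    TH M hM p = Lvl.heckeRaw (compatY M hM hpM).conjP := by
  rw [TH, dif_pos ⟨hp.out, hpM⟩]

theorem rawY_eq (p : ℕ) (s : SL(2, ℤ)) (x : OnePoint (ZMod p)) : rawY p s x = rawRep p s x := by
  rw [rawY, repY_eq, inv_mul_cancel_left]

theorem k3TH (ℓ : ℕ) : K3T M hM ℓ (TH M hM) := by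
  intro p hp hpM
  have hc := coprime_of_prime M hp hpM
  haveI : Fact p.Prime := ⟨hp⟩
  refine ⟨sP M p, sP_mem M hc, sP_entry M hc, fun χ χ' x hx hχ => ?_⟩
  rw [TH_eq M hM hpM]
  refine IsKummer.heckeRaw (compatY M hM hpM) hx ?_
  intro g σ d hd
  refine hχ g σ d fun x => ?_
  rw [rawY_eq, rawY_eq]
  exact hd x

theorem exists_heckeES : ExistsHeckeES := by
  intro M _ hM hM4 h23 ℓ hℓ hℓM
  refine ⟨TH M hM, Dm M hM hM4, ?_, ?_, ?_, ?_, k3TH M hM ℓ, k3D M hM hM4 ℓ⟩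
  · intro p hp hpM σ x
    haveI : Fact p.Prime := ⟨hp⟩
    rw [TH_eq M hM hpM]
    exact Lvl.galois_heckeRaw _ σ x
  · intro p hp hpM σ x
    exact galD M hM hM4 (coprime_of_prime M hp hpM) σ x
  · intro p hp hpM A hA σ hσ x hx
    obtain ⟨hN, hK, -⟩ := exists_norm_K1 M hM hM4 h23 p hp hpM A hA
    have hpℓ : ¬ p ∣ ℓ := fun h => hpM (h.trans hℓM)
    exact esUnram hN hℓ.ne_zero (hK ℓ hℓ.ne_zero hpℓ) hσ x hx
  · intro p hp hpM A hA σ hσ x hx
    haveI : Fact p.Prime := ⟨hp⟩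
    haveI : CharP (IsLocalRing.ResidueField A) p := Fermat.Agent.RED.charP_residueField A hA
    obtain ⟨hN, hK, hδ⟩ := exists_norm_K1 M hM hM4 h23 p hp hpM A hA
    have hpℓ : ¬ p ∣ ℓ := fun h => hpM (h.trans hℓM)
    have hc := coprime_of_prime M hp hpM
    have hcomp := compatY M hM hpM
    have hC := congrD_diam (diamY M hM hM4 hc) hcomp hN (by
      intro y
      rw [diamS_diamY]
      exact hδ y)
    rw [diamS_diamY] at hC
    have := esQuad hN hℓ.ne_zero (hK ℓ hℓ.ne_zero hpℓ) _ _ (Lvl.isIntegral_alphaK hcomp.conjP)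
      (Lvl.isIntegral_betaK hcomp.conjP) (Lvl.fundamentalIdentityAlong_betaK hcomp.conjP)
      (Lvl.finiteAlong_alphaK hcomp.conjP) (Lvl.normFormulaAlong_alphaK hcomp.conjP)
      (dia M hM hM4 p) hC hσ (dia_comm M hM hM4 hc σ) x hx
    rw [TH_eq M hM hpM, Dm_apply]
    exact this

/-- **(MODL)**, in the exact shape of `Forms/Top.hasModL`. -/
theorem hasModL {N : ℕ} [NeZero N] {ε : DirichletCharacter ℂ N} {f : CuspForm (Gamma1 N) 1}
    (h : Eigen N ε f) (a e : ℕ → OO)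
    (ha : ∀ p : ℕ, p.Prime → ¬ p ∣ N → (a p : ℂ) = ModularFormClass.qCoeff f p)
    (he : ∀ p : ℕ, (e p : ℂ) = ε (p : ZMod N)) (c : ℕ) (hc : c = 2 ∨ c = 3) :
    ∃ ℓ₀ : ℕ, ∀ ℓ : ℕ, ℓ.Prime → ℓ₀ ≤ ℓ → HasModL (N * c) a e ℓ :=
  hasModL_of exists_heckeES h a e ha he c hc

end

end Fermat.Agent.S48.ModL
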