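import Fermat.Agent.S48.ModL.Lvl
import Fermat.Agent.S48.Defs
import Fermat.Agent.S48.Forms.Char
import Fermat.Prelude.Sol.S_ModularForm_heckeT_slash_eq_self_of_mem_Gamma0

/-!
# S48 / MODL : the group `GY M`, diamonds, and the interface `EigenCharY`

`GY M = {γ ∈ Γ₀(M²) : d ≡ ± 1 mod M}`; it is conjugate (by `diag(M,1)`) to `± Γ(M)`.
-/

set_option autoImplicit false

open UpperHalfPlane hiding I
open Function ModularCurve CongruenceSubgroup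
open scoped Manifold MatrixGroups
open Fermat.Agent.S24
open Matrix.SpecialLinearGroup (mapGL)
open P2MW.S_ModularForm_heckeT_slash_eq_self_of_mem_Gamma0.ModularForm.HeckeSlashInvariance

namespace Fermat.Agent.S48.ModL

theorem Gamma0_sq_le (M : ℕ) : Gamma0 (M ^ 2) ≤ Gamma0 M := by
  intro γ hγ
  rw [Gamma0_mem, ZMod.intCast_zmod_eq_zero_iff_dvd] at hγ ⊢
  exact dvd_trans (by push_cast; exact Dvd.intro_left ((M : ℤ) ^ 1) (by ring)) hγ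

/-- `GY M = {γ ∈ Γ₀(M²) : d ≡ ± 1 mod M}`. -/
def GY (M : ℕ) : Subgroup SL(2, ℤ) where
  carrier := {γ | γ ∈ Gamma0 (M ^ 2) ∧
    (((γ 1 1 : ℤ) : ZMod M) = 1 ∨ ((γ 1 1 : ℤ) : ZMod M) = -1)}
  one_mem' := ⟨one_mem _, Or.inl (by simp)⟩
  mul_mem' := by
    rintro a b ⟨ha, ha'⟩ ⟨hb, hb'⟩
    refine ⟨mul_mem ha hb, ?_⟩
    rw [Gamma0_mul_entry (Gamma0_sq_le M ha)]
    rcases ha' with h | h <;> rcases hb' with h' | h' <;> rw [h, h'] <;> simp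
  inv_mem' := by
    rintro a ⟨ha, ha'⟩
    refine ⟨inv_mem ha, ?_⟩
    have h := Gamma0_entry_mul_inv (Gamma0_sq_le M ha)
    rcases ha' with h' | h' <;> rw [h'] at h
    · left; simpa using h
    · right
      have : -(((a⁻¹ 1 1 : ℤ) : ZMod M)) = 1 := by simpa using h
      rw [← this, neg_neg]

theorem mem_GY {M : ℕ} {γ : SL(2, ℤ)} : γ ∈ GY M ↔ γ ∈ Gamma0 (M ^ 2) ∧
    (((γ 1 1 : ℤ) : ZMod M) = 1 ∨ ((γ 1 1 : ℤ) : ZMod M) = -1) := Iff.rfl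

theorem GY_le_Gamma0 (M : ℕ) : GY M ≤ Gamma0 (M ^ 2) := fun _ h => h.1

/-- Representatives of the standard Hecke operator `T_p` for `GY M`:
`[[1,b],[0,p]]` (`b` mod `p`) and `s * diag(p,1)`, where `s ∈ Γ₀(M²)` has `d_s ≡ p` mod `M`. -/
noncomputable def repY (p : ℕ) (s : SL(2, ℤ)) (x : OnePoint (ZMod p)) : GL (Fin 2) ℝ :=
  x.elim (mapGL ℝ s * heckeRep p OnePoint.infty) (fun j => heckeRep p (j : OnePoint (ZMod p)))

/-- **Interface [EC]**: a `k`-valued eigen-character of `GY M`, with `T_p`-eigenvalue `t p` and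
`⟨p⟩`-eigenvalue `e p / p` (`p ∤ M` prime).  Conventions: `⟨d⟩ f = f ∣[2] s`, `d_s ≡ d`;
`T_p f = ∑_x f ∣[2] repY p s x`; `c = c' ∘ per`, `per γ f = ∫_{τ₀}^{γ τ₀} f`, so that
`per (s γ s⁻¹) f = per γ (⟨d_s⟩ f)` and `∑_x per (d x) f = per γ (T_p f)`. -/
def EigenCharY (M : ℕ) {k : Type} [Field k] (t e : ℕ → k) : Prop :=
  ∃ c : Additive (GY M) →+ k, c ≠ 0 ∧
    (∀ γ : GY M, |(γ : SL(2, ℤ)) 0 0 + (γ : SL(2, ℤ)) 1 1| ≤ 2 → c (Additive.ofMul γ) = 0) ∧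
    ∀ p : ℕ, (hp : p.Prime) → ¬ p ∣ M → ∀ s : SL(2, ℤ), s ∈ Gamma0 (M ^ 2) →
      ((s 1 1 : ℤ) : ZMod M) = p →
      (∀ γ γ' : GY M, (γ' : SL(2, ℤ)) = s * γ * s⁻¹ →
        (p : k) * c (Additive.ofMul γ') = e p * c (Additive.ofMul γ)) ∧
      (haveI : NeZero p := ⟨hp.ne_zero⟩
       ∀ (γ : GY M) (σ : Equiv.Perm (OnePoint (ZMod p))) (d : OnePoint (ZMod p) → GY M),
        (∀ x, repY p s x * mapGL ℝ (γ : SL(2, ℤ)) = mapGL ℝ (d x : SL(2, ℤ)) * repY p s (σ x)) →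
        ∑ x, c (Additive.ofMul (d x)) = t p * c (Additive.ofMul γ))

end Fermat.Agent.S48.ModL
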