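import Fermat.Agent.S48.Defs
import Fermat.Agent.GAL.Glue
import Fermat.Agent.GAL.ChebWire
import Fermat.Agent.GAL.PC.CycloPow

/-!
# S48 / MODL, block [GL]: abstract glue with a character

* `exists_attached_of_module` : a nonzero finite dimensional Galois module over an algebraically
  closed field `k` on which `σ² - t p σ + d p = 0` for all Frobenius lifts `σ` at `p ∤ M`, and a
  character `χ` of finite level, unramified outside `M`, with `χ (Frob_p) = d p`
  ⟹ `∃ ρ, Attached ρ M t d`.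
* `exists_attached_of_family` : the same from an abelian group `J` with Galois action, operators
  `T p`, `Dm p` and the relation `σ² (Dm p x) - T p (σ x) + p x = 0` on `J[ℓ]`, and an eigen-family
  `X : (k →+ ZMod ℓ) →+ J`.
* `exists_dirichlet_galoisChar` : the Galois character attached to a Dirichlet character, reduced
  along `φ : OO →+* k`.
-/

set_option autoImplicit false
open Polynomial
open Fermat.Agent.GAL Fermat.Agent.GAL.QuadRep

namespace Fermat.Agent.S48.ModL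

local notation "Qbar" => AlgebraicClosure ℚ
local notation "GQ" => (AlgebraicClosure ℚ ≃ₐ[ℚ] AlgebraicClosure ℚ)

/-- The properties of the determinant character. -/
structure IsDetChar {k : Type} [Field k] (χ : GQ →* k) (M : ℕ) (d : ℕ → k) : Prop where
  fin : ∃ L : IntermediateField ℚ Qbar, FiniteDimensional ℚ L ∧
    ∀ σ : GQ, (∀ x ∈ L, σ x = x) → χ σ = 1
  frob : ∀ p : ℕ, p.Prime → ¬ p ∣ M → ∀ A : ValuationSubring Qbar, A.LiesOverPrime p →
    ∀ σ : GQ, A.IsFrobeniusAt σ p → χ σ = d p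
  inertia : ∀ p : ℕ, p.Prime → ¬ p ∣ M → ∀ A : ValuationSubring Qbar, A.LiesOverPrime p →
    ∀ σ ∈ A.inertiaSubgroupIn ℚ, χ σ = 1

/-- **Abstract glue, module form.** -/
theorem exists_attached_of_module {k : Type} [Field k] [IsAlgClosed k] {M : ℕ} (hM : M ≠ 0)
    (t d : ℕ → k) (χ : GQ →* k) (hχ : IsDetChar χ M d)
    {W : Type*} [AddCommGroup W] [Module k W] [FiniteDimensional k W] [Nontrivial W]
    (r : GQ →* Module.End k W)
    (hfin : ∃ L : IntermediateField ℚ Qbar, FiniteDimensional ℚ L ∧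
      ∀ σ : GQ, (∀ x ∈ L, σ x = x) → r σ = 1)
    (hunr : ∀ p : ℕ, p.Prime → ¬ p ∣ M → ∀ A : ValuationSubring Qbar, A.LiesOverPrime p →
      ∀ σ ∈ A.inertiaSubgroupIn ℚ, r σ = 1)
    (hES : ∀ p : ℕ, p.Prime → ¬ p ∣ M → ∀ A : ValuationSubring Qbar, A.LiesOverPrime p →
      ∀ σ : GQ, A.IsFrobeniusAt σ p →
        r σ * r σ - t p • r σ + d p • (1 : Module.End k W) = 0) :
    ∃ ρ : ResidualGaloisRep k, Attached ρ M t d := by
  obtain ⟨L₁, hL₁, hr₁⟩ := hfin
  obtain ⟨L₂, hL₂, hc₂⟩ := hχ.fin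
  set L : IntermediateField ℚ Qbar := L₁ ⊔ L₂ with hL
  have hLfin : FiniteDimensional ℚ L := IntermediateField.finiteDimensional_sup L₁ L₂
  have hrL : ∀ σ : GQ, (∀ x ∈ L, σ x = x) → r σ = 1 := fun σ hσ =>
    hr₁ σ fun x hx => hσ x ((le_sup_left : L₁ ≤ L) hx)
  have hχL : ∀ σ : GQ, (∀ x ∈ L, σ x = x) → χ σ = 1 := fun σ hσ =>
    hc₂ σ fun x hx => hσ x ((le_sup_right : L₂ ≤ L) hx)
  have key : ∀ σ : GQ, ∃ v : k, r σ * r σ - v • r σ + χ σ • (1 : Module.End k W) = 0 := by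
    intro σ
    obtain ⟨p, A, τ, c, hp, hpT, hA, hτ, hστ⟩ := genCheb L hLfin σ M.primeFactors
    have hpM : ¬ p ∣ M := fun hd => hpT (Nat.mem_primeFactors.mpr ⟨hp, hd, hM⟩)
    have ha := hES p hp hpM A hA τ hτ
    have hfix : ∀ x ∈ L, ((τ ^ c)⁻¹ * σ) x = x := by
      intro x hx
      rw [AlgEquiv.mul_apply, hστ x hx]
      exact (τ ^ c).symm_apply_apply x
    have hrσ : r σ = r τ ^ c := by
      calc r σ = r (τ ^ c * ((τ ^ c)⁻¹ * σ)) := by rw [mul_inv_cancel_left]
        _ = r τ ^ c := by rw [map_mul, hrL _ hfix, mul_one, map_pow]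
    have hχσ : χ σ = d p ^ c := by
      calc χ σ = χ (τ ^ c * ((τ ^ c)⁻¹ * σ)) := by rw [mul_inv_cancel_left]
        _ = d p ^ c := by
          rw [map_mul, hχL _ hfix, mul_one, map_pow, hχ.frob p hp hpM A hA τ hτ]
    refine ⟨lucasV (t p) (d p) c, ?_⟩
    rw [hrσ, hχσ]
    exact pow_quadratic ha c
  choose t' ht' using key
  have hrel : Rel r χ t' := ht'
  obtain ⟨ρM, hρ1, hρ2⟩ := hrel.exists_rep
  refine ⟨residualOfMatrix ρM ⟨L, hLfin, fun σ hσ => hρ1 σ (hrL σ hσ) (hχL σ hσ)⟩, ?_⟩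
  intro p hp hpM
  refine ⟨?_, ?_⟩
  · intro A hA σ hσ
    rw [residualOfMatrix_ρ, hρ1 σ (hunr p hp hpM A hA σ hσ) (hχ.inertia p hp hpM A hA σ hσ)]
    exact Matrix.toLin'_one
  · intro A hA σ hσ
    have ha2 := hES p hp hpM A hA σ hσ
    have hχσ := hχ.frob p hp hpM A hA σ hσ
    rw [← hχσ] at ha2
    rw [residualOfMatrix_charpoly, hρ2, hrel.t_unique ha2, hχσ]

open Glue Glue.Big in
/-- **Abstract glue, family form.**  The relation is in the shape delivered by `ESAbs.esQuad`: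
`σ² (Dm p x) - T p (σ x) + p x = 0` (`Dm p = ⟨p⟩⁻¹`, `T p = α_* β^*`). -/
theorem exists_attached_of_family {ℓ : ℕ} {k : Type} [Field k] [IsAlgClosed k] [CharP k ℓ]
    {M : ℕ} (hM : M ≠ 0) (t d : ℕ → k) (χ : GQ →* k) (hχ : IsDetChar χ M d)
    {J : Type*} [AddCommGroup J] [DistribMulAction GQ J]
    (T Dm : ℕ → (J →+ J))
    (hGT : ∀ p : ℕ, p.Prime → ¬ p ∣ M → ∀ (σ : GQ) (x : J), σ • T p x = T p (σ • x))
    (hGD : ∀ p : ℕ, p.Prime → ¬ p ∣ M → ∀ (σ : GQ) (x : J), σ • Dm p x = Dm p (σ • x))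
    (hOS : ∀ x : J, ℓ • x = 0 → ∃ L : IntermediateField ℚ Qbar, FiniteDimensional ℚ L ∧
      ∀ σ : GQ, (∀ y ∈ L, σ y = y) → σ • x = x)
    (hunr : ∀ p : ℕ, p.Prime → ¬ p ∣ M → ∀ A : ValuationSubring Qbar, A.LiesOverPrime p →
      ∀ σ ∈ A.inertiaSubgroupIn ℚ, ∀ x : J, ℓ • x = 0 → σ • x = x)
    (hquad : ∀ p : ℕ, p.Prime → ¬ p ∣ M → ∀ A : ValuationSubring Qbar,
      A.LiesOverPrime p → ∀ σ : GQ, A.IsFrobeniusAt σ p → ∀ x : J, ℓ • x = 0 →
        σ • σ • Dm p x - T p (σ • x) + p • x = 0)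
    (a c : ℕ → k)
    (hat : ∀ p : ℕ, p.Prime → ¬ p ∣ M → a p = c p * t p)
    (hcd : ∀ p : ℕ, p.Prime → ¬ p ∣ M → (p : k) = c p * d p)
    (hc0 : ∀ p : ℕ, p.Prime → ¬ p ∣ M → c p ≠ 0)
    (X : (k →+ ZMod ℓ) →+ J) (hX0 : X ≠ 0) (hXfin : (Set.range X).Finite)
    (hXT : ∀ p : ℕ, p.Prime → ¬ p ∣ M → ∀ lam : k →+ ZMod ℓ,
      T p (X lam) = X (lam.comp (AddMonoidHom.mulLeft (a p))))
    (hXD : ∀ p : ℕ, p.Prime → ¬ p ∣ M → ∀ lam : k →+ ZMod ℓ,
      Dm p (X lam) = X (lam.comp (AddMonoidHom.mulLeft (c p)))) :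
    ∃ ρ : ResidualGaloisRep k, Attached ρ M t d := by
  let X' : Big ℓ k J := X
  let r₁ : GQ →* Module.End k (Big ℓ k J) := rep
  let W : Submodule k (Big ℓ k J) := Submodule.span k (Set.range fun σ : GQ => r₁ σ X')
  have hstab : ∃ L : IntermediateField ℚ Qbar, FiniteDimensional ℚ L ∧
      ∀ σ : GQ, (∀ y ∈ L, σ y = y) → σ • X' = X' := by
    obtain ⟨L, hL, h⟩ := exists_common_level (Set.range X) hXfin (by
      rintro _ ⟨lam, rfl⟩
      exact hOS _ (nsmul_hom_eq_zero X' lam))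
    exact ⟨L, hL, fun σ hσ => Big.ext fun lam => h σ hσ _ ⟨lam, rfl⟩⟩
  have hfd : FiniteDimensional k W :=
    FiniteDimensional.span_of_finite _ (finite_orbit_of_finiteLevel X' hstab)
  have hXmem : X' ∈ W := Submodule.subset_span ⟨1, by simp⟩
  have hnt : Nontrivial W := ⟨⟨⟨X', hXmem⟩, 0, fun h => hX0 (congrArg Subtype.val h)⟩⟩
  have hinv : ∀ σ, ∀ w ∈ W, r₁ σ w ∈ W := by
    intro σ w hw
    induction hw using Submodule.span_induction with
    | mem w hw =>
      obtain ⟨τ, rfl⟩ := hw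
      refine Submodule.subset_span ⟨σ * τ, ?_⟩
      simp [map_mul]
    | zero => simp
    | add u v _ _ hu hv => rw [map_add]; exact add_mem hu hv
    | smul c u _ hu => rw [map_smul]; exact Submodule.smul_mem _ _ hu
  -- an operator commuting with Galois and having `X` as an eigenvector acts on `W` by a scalar
  have hscal : ∀ (S : J →+ J) (e : k), (∀ (σ : GQ) (x : J), σ • S x = S (σ • x)) →
      (∀ lam : k →+ ZMod ℓ, S (X lam) = X (lam.comp (AddMonoidHom.mulLeft e))) →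
      ∀ w ∈ W, post S w = e • w := by
    intro S e hGS hXS w hw
    induction hw using Submodule.span_induction with
    | mem w hw =>
      obtain ⟨τ, rfl⟩ := hw
      apply Big.ext; intro lam
      rw [post_apply, Big.smul_apply]
      change S (τ • X lam) = τ • X (mulF ℓ k e lam)
      rw [← hGS, hXS]
      rfl
    | zero => simp
    | add u v _ _ hu hv => rw [map_add, hu, hv, smul_add]
    | smul c u _ hu => rw [map_smul, hu, smul_comm]
  let r₀ : GQ →* Module.End k W := restrictRep r₁ W hinv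
  have hr₀ : ∀ (σ : GQ) (w : W) (lam : k →+ ZMod ℓ),
      hom ((r₀ σ w : W) : Big ℓ k J) lam = σ • hom (w : Big ℓ k J) lam := fun σ w lam => rfl
  refine exists_attached_of_module hM t d χ hχ r₀ ?_ ?_ ?_
  · obtain ⟨L, hL, h⟩ := exists_finiteLevel_orbit X' hstab
    refine ⟨L, hL, fun σ hσ => ?_⟩
    have key : ∀ w ∈ W, r₁ σ w = w := by
      intro w hw
      induction hw using Submodule.span_induction with
      | mem w hw =>
        obtain ⟨τ, rfl⟩ := hw
        exact h σ hσ τ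
      | zero => simp
      | add u v _ _ hu hv => rw [map_add, hu, hv]
      | smul c u _ hu => rw [map_smul, hu]
    ext w
    exact key w.1 w.2
  · intro p hp hpM A hA σ hσ
    ext w
    apply Big.ext; intro lam
    rw [hr₀]
    exact hunr p hp hpM A hA σ hσ _ (nsmul_hom_eq_zero _ lam)
  · intro p hp hpM A hA σ hσ
    -- first the relation `c σ² - a σ + p = 0`
    have hmain : c p • (r₀ σ * r₀ σ) - a p • r₀ σ + (p : k) • (1 : Module.End k W) = 0 := by
      ext w
      apply Big.ext; intro lam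
      have h1 := hquad p hp hpM A hA σ hσ _ (nsmul_hom_eq_zero (w : Big ℓ k J) lam)
      have h2 := hscal (T p) (a p) (hGT p hp hpM) (hXT p hp hpM) _ (r₀ σ w).2
      have h3 : hom (a p • ((r₀ σ w : W) : Big ℓ k J)) lam =
          T p (σ • hom (w : Big ℓ k J) lam) := by
        rw [← h2, post_apply, hr₀]
      have h4 := hscal (Dm p) (c p) (hGD p hp hpM) (hXD p hp hpM) _ (r₀ σ (r₀ σ w)).2
      have h5 : hom (c p • ((r₀ σ (r₀ σ w) : W) : Big ℓ k J)) lam =
          σ • σ • Dm p (hom (w : Big ℓ k J) lam) := by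
        rw [← h4, post_apply, hr₀, hr₀, hGD p hp hpM, hGD p hp hpM]
      simp only [LinearMap.add_apply, LinearMap.sub_apply, Module.End.mul_apply,
        LinearMap.smul_apply, Module.End.one_apply, LinearMap.zero_apply, Submodule.coe_add,
        Submodule.coe_sub, Submodule.coe_smul, Submodule.coe_zero, Nat.cast_smul_eq_nsmul]
      rw [Big.add_apply, Big.sub_apply, h3, h5, Submodule.coe_smul_of_tower, Big.nsmul_apply]
      exact h1
    have hc := hc0 p hp hpM
    have h6 : c p • (r₀ σ * r₀ σ - t p • r₀ σ + d p • (1 : Module.End k W)) = 0 := by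
      rw [smul_add, smul_sub, smul_smul, smul_smul, ← hat p hp hpM, ← hcd p hp hpM]
      exact hmain
    exact (smul_eq_zero.mp h6).resolve_left hc

/-- **The Galois character of a Dirichlet character, reduced along `φ`.** -/
theorem exists_dirichlet_galoisChar (N : ℕ) [NeZero N] (ε : DirichletCharacter ℂ N)
    (e : ℕ → OO) (he : ∀ p : ℕ, (e p : ℂ) = ε (p : ZMod N)) {k : Type} [Field k]
    (φ : OO →+* k) {M : ℕ} (hNM : N ∣ M) :
    ∃ χ : GQ →* k, IsDetChar χ M (fun p => φ (e p)) := by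
  let eZ : ZMod N → OO := fun u => e u.val
  have heZ : ∀ u : ZMod N, (eZ u : ℂ) = ε u := fun u => by
    show (e u.val : ℂ) = ε u
    rw [he, ZMod.natCast_zmod_val]
  have heZ_mul : ∀ u v : ZMod N, eZ (u * v) = eZ u * eZ v := fun u v => by
    apply Subtype.ext
    push_cast
    rw [heZ, heZ, heZ, map_mul]
  have heZ_one : eZ 1 = 1 := by
    apply Subtype.ext
    push_cast
    rw [heZ, map_one]
  let χ : GQ →* k :=
    { toFun := fun σ => φ (eZ (cycloChar N σ : ZMod N))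
      map_one' := by rw [map_one, Units.val_one, heZ_one, map_one]
      map_mul' := fun σ τ => by rw [map_mul, Units.val_mul, heZ_mul, map_mul] }
  have hχ : ∀ σ, χ σ = φ (eZ (cycloChar N σ : ZMod N)) := fun _ => rfl
  refine ⟨χ, ?_, ?_, ?_⟩
  · obtain ⟨L, hL, h⟩ := cycloChar_finiteLevel N
    exact ⟨L, hL, fun σ hσ => by rw [hχ, h σ hσ, Units.val_one, heZ_one, map_one]⟩
  · intro p hp hpM A hA σ hσ
    have hcop : Nat.Coprime p N :=
      (Nat.Prime.coprime_iff_not_dvd hp).2 (fun h => hpM (h.trans hNM))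
    rw [hχ, PC.cycloChar_of_isFrobeniusAt' N hp hcop hA hσ]
    congr 1
    apply Subtype.ext
    rw [heZ, he]
  · intro p hp hpM A hA σ hσ
    have hcop : Nat.Coprime p N :=
      (Nat.Prime.coprime_iff_not_dvd hp).2 (fun h => hpM (h.trans hNM))
    rw [hχ, PC.cycloChar_of_mem_inertia' N hp hcop hA hσ, Units.val_one, heZ_one, map_one]

end Fermat.Agent.S48.ModL
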