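import Fermat.Agent.S48.ModL.ESAbs
import Fermat.Agent.RED.Gauss.ON
import Fermat.Agent.RED.FF.DeuringBridge
import Fermat.Agent.RED.S18.Kummer
import Fermat.Agent.RED.S18.KProp

/-!
# S48 / MODL, block [G], last step: (K) and (K1) from `CoreData` and the genus inequality

Everything is abstract in the field `F ⊆ L((q))`: a formal core `H : CoreData π F n t w`
(orthonormal structure for the Gauss valuation), separating parameters of `F` and of the residue
field `gFb H.toNorm`, and `gR F ≤ gR (gFb H.toNorm)` give the Kummer property (K).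
-/

set_option autoImplicit false
set_option linter.unusedSectionVars false
noncomputable section

open ModularCurve AlgebraicCurve Polynomial

namespace Fermat.Agent.S48.ModL

open Fermat.Agent.RED Fermat.Agent.RED.Gauss

section General

variable {L : Type*} [Field L] {A : ValuationSubring L} {k : Type*} [Field k] {π : A →+* k}
  {F : IntermediateField L (LaurentSeries L)} {n : ℕ} {t : LaurentSeries A}
  {w : Fin n → LaurentSeries A}

/-- **(K) from the formal core and the genus inequality.** -/
theorem kProp_of_coreData [IsAlgClosed L] [IsAlgClosed k] (H : CoreData π F n t w)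
    {x₀ : F} (hx : IsSepParam L x₀) {y₀ : gFb H.toNorm} (hy : IsSepParam k y₀)
    (hg : gR L F ≤ gR k (gFb H.toNorm)) {m : ℕ} (hm : (m : k) ≠ 0) :
    KProp (H.toNorm.redData (gFb H.toNorm) rfl) m := by
  obtain ⟨c, HD⟩ := exists_deuringHyp (H.toNorm.redData (gFb H.toNorm) rfl) hx hy hg
    (H.on (gFb H.toNorm) rfl)
  intro x γ hγ hxγ hdiv
  refine exists_pow_eq_of_red_pow hx hy HD ?_ x γ hγ hxγ hdiv
  intro h0
  apply hm
  have h2 : algebraMap k (gFb H.toNorm) (m : k) = 0 := by
    rw [map_natCast]; exact h0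
  exact (map_eq_zero _).mp h2

end General

local notation "Qb" => AlgebraicClosure ℚ

variable {F₀ : IntermediateField ℚ (LaurentSeries ℚ)}
  {A : ValuationSubring Qb} {k : Type*} [Field k] {π : A →+* k}

/-- (K1) from (K). -/
theorem K1_of_kProp (hN : Norm π (laurentBaseChange Qb F₀)) {m : ℕ} (hm : m ≠ 0)
    (HK : KProp (hN.redData (gFb hN) rfl) m) : K1 hN m := by
  intro g hg hdiv
  obtain ⟨h, hh⟩ := HK g 1 one_ne_zero (by rw [one_pow]; exact Subtype.ext hg) hdiv
  have hg0 : (g : laurentBaseChange Qb F₀) ≠ 0 := by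
    intro h0
    have : g = 0 := Subtype.ext h0
    rw [this, map_zero] at hg
    exact zero_ne_one hg
  have hh0 : h ≠ 0 := by
    rintro rfl
    rw [zero_pow hm] at hh
    exact hg0 hh.symm
  refine ⟨h, hh0, fun P => ?_⟩
  rw [← hh, ← zpow_natCast, P.ord_zpow]

/-- **(K1) from the formal core and the genus inequality.** -/
theorem K1_of_coreData [IsAlgClosed k] {n : ℕ} {t : LaurentSeries A}
    {w : Fin n → LaurentSeries A} (H : CoreData π (laurentBaseChange Qb F₀) n t w)
    {x₀ : laurentBaseChange Qb F₀} (hx : IsSepParam Qb x₀) {y₀ : gFb H.toNorm}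
    (hy : IsSepParam k y₀) (hg : gR Qb (laurentBaseChange Qb F₀) ≤ gR k (gFb H.toNorm))
    {m : ℕ} (hm : (m : k) ≠ 0) : K1 H.toNorm m :=
  K1_of_kProp H.toNorm (by rintro rfl; simp at hm) (kProp_of_coreData H hx hy hg hm)

end Fermat.Agent.S48.ModL
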