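import Fermat.Agent.S48.ModL.Igusa.Final
import Fermat.Agent.S48.ModL.Igusa.K1
import Fermat.Agent.S48.ModL.Genus.Resolvent
import Fermat.Agent.S48.ModL.F.Dia
import Fermat.Agent.RED.S18Main
import Fermat.Agent.RR.Hurwitz

/-!
# S48 / MODL, block [R] : the Gauss norm on the function field of `Y` and (K1)

Plug of [IY] (`Igusa.exists_hyp_lvlY`), `Igusa.Hyp.K1_of_kummer`, [G2] (`Genus.exists_kummer_basis`)
and the genus inequality at level `M²` (`RED.gen_of_rhRel`).
-/

set_option autoImplicit false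
set_option linter.unusedSectionVars false
set_option linter.style.haveILetI false
set_option synthInstance.maxHeartbeats 400000

open UpperHalfPlane hiding I
open Function ModularCurve CongruenceSubgroup AlgebraicCurve
open scoped Manifold MatrixGroups
open Fermat.Agent.S24 Fermat.Agent.GAL Fermat.Agent.RED Fermat.Agent.RED.Gauss

namespace Fermat.Agent.S48.ModL.NK

open Y F

noncomputable section

variable (M : ℕ) [NeZero M] (hM : 2 < M) (hM4 : ¬ M ∣ 4)

theorem bar_le_FKf : modularFunctionFieldBar (M ^ 2) ≤ (lvlY M hM).FKf Kb :=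
  laurentBaseChange_mono_diam (full_le_F₀ M hM)

/-- the function field of `Y` as an algebra over the function field of `X₀(M²)`. -/
abbrev algY : Algebra (FN (M ^ 2)) ((lvlY M hM).FK Kb) :=
  (IntermediateField.inclusion (bar_le_FKf M hM)).toAlgebra

theorem coe_algebraMap_algY (z : FN (M ^ 2)) :
    letI := algY M hM
    ((algebraMap (FN (M ^ 2)) ((lvlY M hM).FK Kb) z : (lvlY M hM).FK Kb) : LaurentSeries Kb) = z :=
  IntermediateField.coe_inclusion _ z

theorem isScalarTower_algY :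
    letI := algY M hM
    IsScalarTower Kb (FN (M ^ 2)) ((lvlY M hM).FK Kb) := by
  letI := algY M hM
  refine IsScalarTower.of_algebraMap_eq fun c => ?_
  exact ((IntermediateField.inclusion (bar_le_FKf M hM)).commutes c).symm

theorem algebraMap_jF :
    letI := algY M hM
    algebraMap (FN (M ^ 2)) ((lvlY M hM).FK Kb) (jF (M ^ 2)) = (lvlY M hM).jK Kb := by
  letI := algY M hM
  apply Subtype.ext
  rw [coe_algebraMap_algY, Lvl.coe_jK, jF, coe_jBar, jqNModC_one]

theorem iota_J_mem (A : ValuationSubring Kb) :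
    iota A (qExpand A M (jqModC A)) ∈ modularFunctionFieldBar (M ^ 2) := by
  have hiJ : iota A (qExpand A M (jqModC A)) = coeffEmb Kb (qExpand ℚ M jq) := by
    rw [coeffEmb_qExpand_jq]; exact Fermat.Agent.S28.coeffMap_qExpand_jqModC _ M
  rw [hiJ]
  exact jBarSeries_mem (M ^ 2) M (Dvd.intro_left M (by ring))

set_option maxHeartbeats 1000000 in
/-- **Block [R].** -/
theorem exists_norm_K1 (h23 : 2 ∣ M ∨ 3 ∣ M) (p : ℕ) (hp : p.Prime) (hpM : ¬ p ∣ M)
    (A : ValuationSubring Kb) (hA : A.LiesOverPrime p) :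
    ∃ hN : Norm (IsLocalRing.residue A) ((lvlY M hM).FKf Kb),
      (∀ m : ℕ, m ≠ 0 → ¬ p ∣ m → K1 hN m) ∧
      ∀ y : gO hN, dia M hM hM4 p • (y : (lvlY M hM).FK Kb) ∈ gO hN := by
  haveI : Fact p.Prime := ⟨hp⟩
  haveI : NeZero (M ^ 2) := ⟨pow_ne_zero 2 (NeZero.ne M)⟩
  haveI := charP_residueField A hA
  haveI := isAlgClosed_residueField A
  have hpM2 : ¬ p ∣ M ^ 2 := fun h => hpM (hp.dvd_of_dvd_pow h)
  have h49 : 4 ∣ M ^ 2 ∨ 9 ∣ M ^ 2 := by
    rcases h23 with h | h
    · left; simpa using pow_dvd_pow_of_dvd h 2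
    · right; simpa using pow_dvd_pow_of_dvd h 2
  obtain ⟨n, x, H⟩ := Igusa.exists_hyp_lvlY M hM hM4 A hA hpM
  letI := algY M hM
  haveI := isScalarTower_algY M hM
  have hcoe := coe_algebraMap_algY M hM
  have hfr := Genus.finrank_eq_card_CY M hM hM4 hcoe
  haveI : FiniteDimensional (FN (M ^ 2)) ((lvlY M hM).FK Kb) := by
    apply Module.finite_of_finrank_pos
    rw [hfr]
    exact Nat.card_pos
  obtain ⟨I, _, R, r, a, E, hli, hcard, hr, ha, hE⟩ :=
    Genus.exists_kummer_basis M hM hM4 hcoe h23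
  have hN₁ := gaussNormBar A (M ^ 2) hA hpM2
  have hg : gR Kb (modularFunctionFieldBar (M ^ 2)) ≤
      gR (IsLocalRing.ResidueField A) (gFb hN₁) := by
    rw [gFb_eq_fullC (IsLocalRing.residue A) IsLocalRing.residue_surjective (card_Q_pos (M ^ 2))
      (exists_isCoreExt (M ^ 2) p hpM2).choose_spec hN₁]
    exact gen_of_rhRel (M ^ 2) (fun _ _ _ _ _ _ _ _ _ _ _ _ h1 h2 => Fermat.Agent.RR.rhRel h1 h2)
      h49 _ hpM2
  have hx₁ : IsSepParam Kb (jF (M ^ 2)) := 
    IsSepParam.of_charZero (HeckeInputs.isFiniteParam_jF (M ^ 2))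
  have hx₂ : IsSepParam Kb (algebraMap (FN (M ^ 2)) ((lvlY M hM).FK Kb) (jF (M ^ 2))) := by
    rw [algebraMap_jF]
    exact IsSepParam.of_charZero ((lvlY M hM).isFiniteParam_jK iotaK.toRingHom)
  obtain ⟨w, HC, hK⟩ := H.K1_of_kummer hN₁ (iota_J_mem M A) hcoe (Genus.CY M hM hM4)
    (Genus.smul_algebraMap_of_mem_CY M hM hM4 hcoe) hfr.le hx₁ hx₂ R hli hcard hr a ha E hE hg
  refine ⟨HC.toNorm, fun m _ hm => hK m ?_, fun y => ?_⟩
  · rw [Ne, CharP.cast_eq_zero_iff (IsLocalRing.ResidueField A) p]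
    exact hm
  · rw [dia_smul_eq_toGF]
    exact H.smul_mem_gO HC.toNorm _ y.2

end

end Fermat.Agent.S48.ModL.NK
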